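/-
S55 (Program C / C6, first inequality), leaf (L3) of helper50's design #2057 (helper82):
`H¹(G, N_S) = 0` for the `S`-units of a cyclic extension, in Mathlib's `HeightOneSpectrum`
language (matching helper83's `H83.ordv` and `Set.unit`).

Setting (AKLB): `A`, `B` Dedekind domains with fraction fields `K`, `L`, `B` the integral closure
of `A` in `L`, `L/K` finite Galois and cyclic with generator `σ`;  `S` a set of primes of `A`,
`T = {w | w.under A ∈ S}` the primes of `B` above `S`.

* `galComap A σ w` : the prime `σ⁻¹(w)`; `galComap_valuation`, `galComap_under`,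
  `exists_galComap_eq` (transitivity of the Galois group on the primes above a prime of `A`);
* `exists_sUnit_div_eq_of_norm_eq_one` : if the primes outside `S` are unramified in `L` and
  every divisor of `K` prime to `S` is principal modulo `S` (the conclusion of
  `H83.exists_finset_forall_exists_ordv_eq`), then every `T`-unit `x` of `L` with
  `N_{L/K} x = 1` is `σ y / y` with `y` a `T`-unit;
* `exists_sUnit_div_eq_of_norm_eq_one_numberField` : the same for number fields
  (`A = 𝓞 K`, `B = 𝓞 L`).

Proof: Hilbert 90 (Mathlib, `groupCohomology.exists_div_of_norm_eq_one`) gives `x = σ z / z`;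
the valuations of `z` at the primes outside `T` are Galois invariant, hence depend only on the
prime of `K` below, hence (no ramification, class group hypothesis) agree with those of some
`c ∈ Kˣ`; `y = z / c`.
-/
import Mathlib
import Fermat.Agent.S55.H83.SUnit

set_option autoImplicit false
set_option linter.unusedSectionVars false

open IsDedekindDomain HeightOneSpectrum

namespace Fermat.Agent.S55.H82

noncomputable section

section Transport

variable {B : Type*} [CommRing B] [IsDedekindDomain B] {L : Type*} [Field L] [Algebra B L]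
  [IsFractionRing B L]

/-- `Ideal.map e` as a multiplicative equivalence of the monoid of ideals. -/
def idealMapMulEquiv (e : B ≃+* B) : Ideal B ≃* Ideal B where
  toFun I := I.map (e : B →+* B)
  invFun I := I.map (e.symm : B →+* B)
  left_inv I := by
    simp [Ideal.map_map]
  right_inv I := by
    simp [Ideal.map_map]
  map_mul' I J := Ideal.map_mul _ I J

theorem intValuation_comap_ringEquiv (e : B ≃+* B) (w : HeightOneSpectrum B) (a : B) :
    (HeightOneSpectrum.comap (e : B →+* B) e.surjective w).intValuation a =
      w.intValuation (e a) := by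
  rcases eq_or_ne a 0 with rfl | ha
  · simp
  have hea : e a ≠ 0 := by simpa using ha
  rw [intValuation_eq_exp_neg_multiplicity _ ha, intValuation_eq_exp_neg_multiplicity _ hea]
  have h1 : w.asIdeal = idealMapMulEquiv e (w.asIdeal.comap (e : B →+* B)) :=
    (Ideal.map_comap_of_surjective _ e.surjective _).symm
  have h2 : Ideal.span {e a} = idealMapMulEquiv e (Ideal.span {a}) := by
    simp [idealMapMulEquiv, Ideal.map_span]
  rw [h1, h2, multiplicity_map_eq]
  rfl

theorem valuation_comap_ringEquiv (e : B ≃+* B) (f : L →+* L)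
    (hf : ∀ b, f (algebraMap B L b) = algebraMap B L (e b)) (w : HeightOneSpectrum B) (x : L) :
    (HeightOneSpectrum.comap (e : B →+* B) e.surjective w).valuation L x =
      w.valuation L (f x) := by
  obtain ⟨a, b, hb, rfl⟩ := IsFractionRing.div_surjective (A := B) x
  simp [map_div₀, hf, valuation_of_algebraMap, intValuation_comap_ringEquiv]

theorem ordv_eq_ordv_iff {B' : Type*} [CommRing B'] [IsDedekindDomain B'] {L' : Type*} [Field L']
    [Algebra B' L'] [IsFractionRing B' L'] (w : HeightOneSpectrum B) (w' : HeightOneSpectrum B')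
    (x : Lˣ) (x' : L'ˣ) :
    H83.ordv L w x = H83.ordv L' w' x' ↔ w.valuation L (x : L) = w'.valuation L' (x' : L') := by
  rw [← valuationOfNeZero_eq, ← valuationOfNeZero_eq, H83.ordv, H83.ordv]
  constructor
  · intro h
    rw [Multiplicative.toAdd.injective h]
  · intro h
    rw [WithZero.coe_injective h]

/-- Only finitely many primes have non-trivial valuation at a given unit. -/
theorem finite_valuation_ne_one (z : Lˣ) :
    {w : HeightOneSpectrum B | w.valuation L (z : L) ≠ 1}.Finite := by
  refine ((HeightOneSpectrum.Support.finite B (z : L)).union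
    (HeightOneSpectrum.Support.finite B ((z⁻¹ : Lˣ) : L))).subset ?_
  intro w hw
  have hpos : 0 < w.valuation L (z : L) := zero_lt_iff.2 ((Valuation.ne_zero_iff _).2 z.ne_zero)
  rcases lt_or_gt_of_ne hw with h | h
  · right
    change 1 < w.valuation L ((z⁻¹ : Lˣ) : L)
    rw [Units.val_inv_eq_inv_val, map_inv₀]
    exact (one_lt_inv₀ hpos).2 h
  · left
    exact h

end Transport

section AKLB

variable (A : Type*) {K L : Type} {B : Type*}
  [CommRing A] [IsDedekindDomain A] [CommRing B] [IsDedekindDomain B] [Algebra A B]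
  [Field K] [Field L] [Algebra K L] [Algebra A K] [IsFractionRing A K] [Algebra A L]
  [IsScalarTower A K L] [Algebra B L] [IsFractionRing B L] [IsScalarTower A B L]
  [IsIntegralClosure B A L] [Algebra.IsIntegral A B] [FiniteDimensional K L]

/-- The prime `σ⁻¹(w)` of `B`, for `σ ∈ Gal(L/K)`. -/
def galComap (σ : L ≃ₐ[K] L) (w : HeightOneSpectrum B) : HeightOneSpectrum B :=
  HeightOneSpectrum.comap (((galRestrict A K L B σ).toRingEquiv : B ≃+* B) : B →+* B)
    (galRestrict A K L B σ).toRingEquiv.surjective w

theorem galComap_valuation (σ : L ≃ₐ[K] L) (w : HeightOneSpectrum B) (x : L) :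
    (galComap A σ w).valuation L x = w.valuation L (σ x) :=
  valuation_comap_ringEquiv (galRestrict A K L B σ).toRingEquiv (σ : L →+* L)
    (fun b => (algebraMap_galRestrict_apply A σ b).symm) w x

theorem galComap_under (σ : L ≃ₐ[K] L) (w : HeightOneSpectrum B) :
    (galComap A σ w).under A = w.under A := by
  ext a
  simp [galComap, Ideal.mem_comap]

theorem exists_galComap_eq [IsGalois K L] {w w' : HeightOneSpectrum B}
    (h : w.under A = w'.under A) : ∃ σ : L ≃ₐ[K] L, galComap A σ w = w' := by
  have h1 : w.asIdeal ∈ (w.under A).asIdeal.primesOver B := ⟨w.isPrime, ⟨rfl⟩⟩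
  have h2 : w'.asIdeal ∈ (w.under A).asIdeal.primesOver B := ⟨w'.isPrime, ⟨by rw [h]; rfl⟩⟩
  obtain ⟨σ, hσ⟩ := Ideal.exists_comap_galRestrict_eq A K L B h1 h2
  exact ⟨σ, HeightOneSpectrum.ext hσ⟩

/-- **`H¹(G, L_T) = 0`** for a cyclic extension `L/K` with group generated by `σ`: if the primes
outside `S` do not ramify (in the form: the valuations at `w ∤ S` extend those of `K` without
ramification), and every divisor of `K` prime to `S` is principal modulo `S`, then every
`T`-unit of norm one (`T` = the primes of `L` above `S`) is of the form `σ y / y` with `y` a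
`T`-unit. -/
theorem exists_sUnit_div_eq_of_norm_eq_one_aux [IsGalois K L] [IsCyclic (L ≃ₐ[K] L)]
    (σ : L ≃ₐ[K] L) (hσ : ∀ g, g ∈ Subgroup.zpowers σ)
    (S : Set (HeightOneSpectrum A))
    (hunr : ∀ w : HeightOneSpectrum B, w.under A ∉ S → ∀ c : K,
      w.valuation L (algebraMap K L c) = (w.under A).valuation K c)
    (hcl : ∀ n : HeightOneSpectrum A → ℤ, (Function.support n).Finite →
      ∃ c : Kˣ, ∀ v, v ∉ S → H83.ordv K v c = n v)
    (x : Lˣ) (hx : x ∈ Set.unit {w : HeightOneSpectrum B | w.under A ∈ S} L)
    (hN : Algebra.norm K (x : L) = 1) :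
    ∃ y : Lˣ, y ∈ Set.unit {w : HeightOneSpectrum B | w.under A ∈ S} L ∧
      (x : L) = σ (y : L) / (y : L) := by
  classical
  -- Hilbert 90
  obtain ⟨z₀, hz₀⟩ := groupCohomology.exists_div_of_norm_eq_one hσ hN
  obtain ⟨z, hz⟩ : ∃ z : Lˣ, σ (z : L) / (z : L) = x := by
    refine ⟨z₀⁻¹, ?_⟩
    rw [← hz₀, Units.val_inv_eq_inv_val, map_inv₀]
    have h1 : (z₀ : L) ≠ 0 := z₀.ne_zero
    have h2 : σ (z₀ : L) ≠ 0 := by simp
    field_simp
  have hxw : ∀ w : HeightOneSpectrum B, w.under A ∉ S → w.valuation L (x : L) = 1 :=
    fun w hw => hx w hw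
  -- the valuations of `z` outside `T` are invariant under the Galois group
  let H : Subgroup (L ≃ₐ[K] L) :=
    { carrier := {g | ∀ w : HeightOneSpectrum B, w.under A ∉ S →
        w.valuation L (g (z : L)) = w.valuation L (z : L)}
      mul_mem' := by
        intro g h hg hh w hw
        have hw' : (galComap A g w).under A ∉ S := by rwa [galComap_under]
        have e1 : w.valuation L ((g * h) (z : L)) = (galComap A g w).valuation L (h (z : L)) := by
          rw [galComap_valuation]; rfl
        rw [e1, hh _ hw', galComap_valuation, hg w hw]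
      one_mem' := by
        intro w _
        rfl
      inv_mem' := by
        intro g hg w hw
        have hw' : (galComap A g⁻¹ w).under A ∉ S := by rwa [galComap_under]
        have e1 := hg _ hw'
        rw [galComap_valuation, galComap_valuation] at e1
        have e2 : g⁻¹ (g (z : L)) = (z : L) := by
          change g.symm (g (z : L)) = _
          simp
        rw [e2] at e1
        exact e1.symm }
  have hσH : σ ∈ H := by
    intro w hw
    have h1 : σ (z : L) = (x : L) * (z : L) := by
      rw [← hz]
      field_simp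
    rw [h1, map_mul, hxw w hw, one_mul]
  have hall : ∀ g : L ≃ₐ[K] L, ∀ w : HeightOneSpectrum B, w.under A ∉ S →
      w.valuation L (g (z : L)) = w.valuation L (z : L) := fun g =>
    (Subgroup.zpowers_le.2 hσH) (hσ g)
  -- hence they only depend on the prime below
  have hconst : ∀ w w' : HeightOneSpectrum B, w.under A ∉ S → w.under A = w'.under A →
      w'.valuation L (z : L) = w.valuation L (z : L) := by
    intro w w' hw hww'
    obtain ⟨g, rfl⟩ := exists_galComap_eq (K := K) (L := L) A hww'
    rw [galComap_valuation, hall g w hw]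
  -- the divisor of `z` away from `T` comes from `K`
  let n : HeightOneSpectrum A → ℤ := fun v =>
    if h : ∃ w : HeightOneSpectrum B, w.under A = v then H83.ordv L h.choose z else 0
  have hn : (Function.support n).Finite := by
    refine ((finite_valuation_ne_one (B := B) z).image (fun w => w.under A)).subset ?_
    intro v hv
    have hv' : n v ≠ 0 := hv
    by_cases h : ∃ w : HeightOneSpectrum B, w.under A = v
    · refine ⟨h.choose, ?_, h.choose_spec⟩
      simp only [n, dif_pos h] at hv'
      intro h1
      exact hv' ((H83.ordv_eq_zero_iff _ _).2 h1)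
    · simp only [n, dif_neg h] at hv'
      exact absurd rfl hv'
  obtain ⟨c, hc⟩ := hcl n hn
  have hzc : ∀ w : HeightOneSpectrum B, w.under A ∉ S →
      w.valuation L (z : L) = (w.under A).valuation K (c : K) := by
    intro w hw
    have h : ∃ w' : HeightOneSpectrum B, w'.under A = w.under A := ⟨w, rfl⟩
    have h1 : n (w.under A) = H83.ordv L h.choose z := by simp only [n, dif_pos h]
    have h2 := hc _ hw
    rw [h1, eq_comm, ordv_eq_ordv_iff] at h2
    rw [← h2]
    exact (hconst w h.choose hw h.choose_spec.symm).symm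
  refine ⟨z * (Units.map (algebraMap K L : K →* L) c)⁻¹, ?_, ?_⟩
  · intro w hw
    have hw' : w.under A ∉ S := hw
    have hc0 : (w.under A).valuation K (c : K) ≠ 0 := (Valuation.ne_zero_iff _).2 c.ne_zero
    rw [Units.val_mul, Units.val_inv_eq_inv_val, map_mul, map_inv₀, Units.coe_map,
      MonoidHom.coe_coe, hunr w hw', hzc w hw']
    exact mul_inv_cancel₀ hc0
  · have hc0 : algebraMap K L (c : K) ≠ 0 := by simp
    have hz0 : (z : L) ≠ 0 := z.ne_zero
    rw [Units.val_mul, Units.val_inv_eq_inv_val, Units.coe_map, MonoidHom.coe_coe, map_mul,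
      map_inv₀, σ.commutes, ← hz]
    field_simp

/-- At a prime `w` with ramification index one over `K`, the valuation of `w` extends the
valuation of the prime below. -/
theorem valuation_algebraMap_of_ramificationIdx_eq_one [Module.IsTorsionFree A B]
    (w : HeightOneSpectrum B)
    (he : (w.under A).asIdeal.ramificationIdx' w.asIdeal = 1) (c : K) :
    w.valuation L (algebraMap K L c) = (w.under A).valuation K c := by
  have : w.asIdeal.LiesOver (w.under A).asIdeal := ⟨rfl⟩
  rw [← valuation_liesOver L (w.under A) w c, he, pow_one]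

/-- **`H¹(G, L_T) = 0`**, with the unramifiedness hypothesis in terms of ramification indices. -/
theorem exists_sUnit_div_eq_of_norm_eq_one [Module.IsTorsionFree A B] [IsGalois K L]
    [IsCyclic (L ≃ₐ[K] L)]
    (σ : L ≃ₐ[K] L) (hσ : ∀ g, g ∈ Subgroup.zpowers σ)
    (S : Set (HeightOneSpectrum A))
    (hunr : ∀ w : HeightOneSpectrum B, w.under A ∉ S →
      (w.under A).asIdeal.ramificationIdx' w.asIdeal = 1)
    (hcl : ∀ n : HeightOneSpectrum A → ℤ, (Function.support n).Finite →
      ∃ c : Kˣ, ∀ v, v ∉ S → H83.ordv K v c = n v)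
    (x : Lˣ) (hx : x ∈ Set.unit {w : HeightOneSpectrum B | w.under A ∈ S} L)
    (hN : Algebra.norm K (x : L) = 1) :
    ∃ y : Lˣ, y ∈ Set.unit {w : HeightOneSpectrum B | w.under A ∈ S} L ∧
      (x : L) = σ (y : L) / (y : L) :=
  exists_sUnit_div_eq_of_norm_eq_one_aux A σ hσ S
    (fun w hw c => valuation_algebraMap_of_ramificationIdx_eq_one A w (hunr w hw) c) hcl x hx hN

end AKLB

section NumberField

open NumberField

variable {K L : Type} [Field K] [NumberField K] [Field L] [NumberField L] [Algebra K L]

/-- **`H¹(G, L_T) = 0`** for number fields. -/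
theorem exists_sUnit_div_eq_of_norm_eq_one_numberField [IsGalois K L] [IsCyclic (L ≃ₐ[K] L)]
    (σ : L ≃ₐ[K] L) (hσ : ∀ g, g ∈ Subgroup.zpowers σ)
    (S : Set (HeightOneSpectrum (𝓞 K)))
    (hunr : ∀ w : HeightOneSpectrum (𝓞 L), w.under (𝓞 K) ∉ S →
      (w.under (𝓞 K)).asIdeal.ramificationIdx' w.asIdeal = 1)
    (hcl : ∀ n : HeightOneSpectrum (𝓞 K) → ℤ, (Function.support n).Finite →
      ∃ c : Kˣ, ∀ v, v ∉ S → H83.ordv K v c = n v)
    (x : Lˣ) (hx : x ∈ Set.unit {w : HeightOneSpectrum (𝓞 L) | w.under (𝓞 K) ∈ S} L)
    (hN : Algebra.norm K (x : L) = 1) :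
    ∃ y : Lˣ, y ∈ Set.unit {w : HeightOneSpectrum (𝓞 L) | w.under (𝓞 K) ∈ S} L ∧
      (x : L) = σ (y : L) / (y : L) :=
  exists_sUnit_div_eq_of_norm_eq_one (𝓞 K) σ hσ S hunr hcl x hx hN

end NumberField

end

end Fermat.Agent.S55.H82
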