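/-
S55 (Program C / C6, first inequality), helper82: universe-polymorphic versions.

Mathlib's cyclic Hilbert 90 (`groupCohomology.exists_div_of_norm_eq_one`) is stated for fields in
`Type`; helper50's leaves (`H50/FirstIneqSpec.lean`) are stated for `k N : Type u`.  This file
re-derives

* `U.exists_div_of_norm_eq_one` : Hilbert 90 for a cyclic extension `L/K` (any universes), from
  Noether's form `groupCohomology.isMulCoboundary₁_of_isMulCocycle₁_of_aut_to_units` applied to
  the cocycle `σ^a ↦ x · σ x ⋯ σ^(a-1) x`;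
* `U.galComap`, `U.exists_sUnit_div_eq_of_norm_eq_one(_aux)` : the Dedekind core of
  `UnitsH1.lean` (`H¹(G, T-units) = 0`) for `K L : Type*`.
-/
import Mathlib
import Fermat.Agent.S55.H83.SUnit
import Fermat.Agent.S55.H82.UnitsH1

set_option autoImplicit false
set_option linter.unusedSectionVars false

open IsDedekindDomain HeightOneSpectrum

namespace Fermat.Agent.S55.H82.U

noncomputable section

open Finset

section Hilbert90

variable {K L : Type*} [Field K] [Field L] [Algebra K L] [FiniteDimensional K L]

/-- The partial norms `x · σ x ⋯ σ^(a-1) x`. -/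
def partialNorm (σ : L ≃ₐ[K] L) (x : Lˣ) (a : ℕ) : Lˣ :=
  ∏ j ∈ range a, Units.map ((σ ^ j : L ≃ₐ[K] L) : L →* L) x

theorem partialNorm_add (σ : L ≃ₐ[K] L) (x : Lˣ) (a b : ℕ) :
    partialNorm σ x (a + b) =
      partialNorm σ x a * Units.map ((σ ^ a : L ≃ₐ[K] L) : L →* L) (partialNorm σ x b) := by
  rw [partialNorm, prod_range_add, partialNorm, partialNorm, map_prod]
  congr 1
  refine prod_congr rfl fun j _ => ?_
  ext
  simp [pow_add]

/-- The product over the Galois group as a product over the powers of a generator. -/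
theorem prod_gal_eq_prod_range (σ : L ≃ₐ[K] L)
    (hσ : ∀ g, g ∈ Subgroup.zpowers σ) (f : (L ≃ₐ[K] L) → L) :
    ∏ g : L ≃ₐ[K] L, f g = ∏ i ∈ range (Nat.card (L ≃ₐ[K] L)), f (σ ^ i) := by
  classical
  rw [← IsCyclic.image_range_card hσ, prod_image]
  intro i hi j hj hij
  rw [← orderOf_eq_card_of_forall_mem_zpowers hσ] at hi hj
  exact pow_injOn_Iio_orderOf (by simpa using hi) (by simpa using hj) hij

theorem partialNorm_card [IsGalois K L] (σ : L ≃ₐ[K] L) (hσ : ∀ g, g ∈ Subgroup.zpowers σ)
    (x : Lˣ) (hx : Algebra.norm K (x : L) = 1) :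
    partialNorm σ x (Nat.card (L ≃ₐ[K] L)) = 1 := by
  ext
  rw [partialNorm, Units.coe_prod, Units.val_one, ← map_one (algebraMap K L), ← hx,
    Algebra.norm_eq_prod_automorphisms, prod_gal_eq_prod_range σ hσ]
  rfl

theorem partialNorm_mod [IsGalois K L] (σ : L ≃ₐ[K] L) (hσ : ∀ g, g ∈ Subgroup.zpowers σ)
    (x : Lˣ) (hx : Algebra.norm K (x : L) = 1) (a : ℕ) :
    partialNorm σ x a = partialNorm σ x (a % Nat.card (L ≃ₐ[K] L)) := by
  have hstep : ∀ a, partialNorm σ x (a + Nat.card (L ≃ₐ[K] L)) = partialNorm σ x a := by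
    intro a
    rw [partialNorm_add, partialNorm_card σ hσ x hx, map_one, mul_one]
  have hmul : ∀ m a, partialNorm σ x (a + m * Nat.card (L ≃ₐ[K] L)) = partialNorm σ x a := by
    intro m
    induction m with
    | zero => intro a; simp
    | succ m ih =>
      intro a
      rw [Nat.succ_mul, ← add_assoc, hstep, ih]
  conv_lhs => rw [← Nat.mod_add_div a (Nat.card (L ≃ₐ[K] L)), mul_comm, hmul]

/-- **Hilbert's Theorem 90** for a cyclic extension (universe polymorphic version of Mathlib's
`groupCohomology.exists_div_of_norm_eq_one`, from Noether's form). -/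
theorem exists_div_of_norm_eq_one [IsGalois K L] (σ : L ≃ₐ[K] L)
    (hσ : ∀ g, g ∈ Subgroup.zpowers σ) (x : Lˣ) (hx : Algebra.norm K (x : L) = 1) :
    ∃ z : Lˣ, σ (z : L) / (z : L) = x := by
  classical
  have hpow : ∀ g : L ≃ₐ[K] L, ∃ k : ℕ, σ ^ k = g := fun g =>
    (isOfFinOrder_of_finite σ).mem_powers_iff_mem_zpowers.2 (hσ g)
  choose k hk using hpow
  have hcard : orderOf σ = Nat.card (L ≃ₐ[K] L) := orderOf_eq_card_of_forall_mem_zpowers hσ
  let f : (L ≃ₐ[K] L) → Lˣ := fun g => partialNorm σ x (k g)
  have hf : ∀ a : ℕ, f (σ ^ a) = partialNorm σ x a := by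
    intro a
    have h1 : k (σ ^ a) ≡ a [MOD orderOf σ] := pow_eq_pow_iff_modEq.1 (hk (σ ^ a))
    rw [hcard] at h1
    change partialNorm σ x (k (σ ^ a)) = _
    rw [partialNorm_mod σ hσ x hx (k (σ ^ a)), partialNorm_mod σ hσ x hx a]
    exact congrArg _ h1
  have hcoc : groupCohomology.IsMulCocycle₁ f := by
    intro g h
    have hg : f g = partialNorm σ x (k g) := rfl
    have hh : f h = partialNorm σ x (k h) := rfl
    have hgh : g * h = σ ^ (k g + k h) := by rw [pow_add, hk, hk]
    rw [hgh, hf, partialNorm_add, hg, hh, AlgEquiv.smul_units_def, hk, mul_comm]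
  obtain ⟨β, hβ⟩ := groupCohomology.isMulCoboundary₁_of_isMulCocycle₁_of_aut_to_units f hcoc
  refine ⟨β, ?_⟩
  have h1 := hβ σ
  have h2 : f σ = x := by
    have := hf 1
    rw [pow_one] at this
    rw [this, partialNorm]
    ext
    simp
  rw [h2, AlgEquiv.smul_units_def] at h1
  have h3 := congrArg (fun u : Lˣ => (u : L)) h1
  simpa using h3

end Hilbert90

section AKLB

variable (A : Type*) {K L : Type*} {B : Type*}
  [CommRing A] [IsDedekindDomain A] [CommRing B] [IsDedekindDomain B] [Algebra A B]
  [Field K] [Field L] [Algebra K L] [Algebra A K] [IsFractionRing A K] [Algebra A L]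
  [IsScalarTower A K L] [Algebra B L] [IsFractionRing B L] [IsScalarTower A B L]
  [IsIntegralClosure B A L] [Algebra.IsIntegral A B] [FiniteDimensional K L]

/-- The prime `σ⁻¹(w)` of `B`, for `σ ∈ Gal(L/K)`. -/
def galComap (σ : L ≃ₐ[K] L) (w : HeightOneSpectrum B) : HeightOneSpectrum B :=
  HeightOneSpectrum.comap (((galRestrict A K L B σ).toRingEquiv : B ≃+* B) : B →+* B)
    (galRestrict A K L B σ).toRingEquiv.surjective w

theorem galComap_valuation (σ : L ≃ₐ[K] L) (w : HeightOneSpectrum B) (x : L) :
    (galComap A σ w).valuation L x = w.valuation L (σ x) :=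
  valuation_comap_ringEquiv (galRestrict A K L B σ).toRingEquiv (σ : L →+* L)
    (fun b => (algebraMap_galRestrict_apply A σ b).symm) w x

theorem galComap_under (σ : L ≃ₐ[K] L) (w : HeightOneSpectrum B) :
    (galComap A σ w).under A = w.under A := by
  ext a
  simp [galComap, Ideal.mem_comap]

theorem exists_galComap_eq [IsGalois K L] {w w' : HeightOneSpectrum B}
    (h : w.under A = w'.under A) : ∃ σ : L ≃ₐ[K] L, galComap A σ w = w' := by
  have h1 : w.asIdeal ∈ (w.under A).asIdeal.primesOver B := ⟨w.isPrime, ⟨rfl⟩⟩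
  have h2 : w'.asIdeal ∈ (w.under A).asIdeal.primesOver B := ⟨w'.isPrime, ⟨by rw [h]; rfl⟩⟩
  obtain ⟨σ, hσ⟩ := Ideal.exists_comap_galRestrict_eq A K L B h1 h2
  exact ⟨σ, HeightOneSpectrum.ext hσ⟩

/-- **`H¹(G, L_T) = 0`** for a cyclic extension `L/K` with group generated by `σ`: if the primes
outside `S` do not ramify (in the form: the valuations at `w ∤ S` extend those of `K` without
ramification), and every divisor of `K` prime to `S` is principal modulo `S`, then every
`T`-unit of norm one (`T` = the primes of `L` above `S`) is of the form `σ y / y` with `y` a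
`T`-unit. -/
theorem exists_sUnit_div_eq_of_norm_eq_one_aux [IsGalois K L]
    (σ : L ≃ₐ[K] L) (hσ : ∀ g, g ∈ Subgroup.zpowers σ)
    (S : Set (HeightOneSpectrum A))
    (hunr : ∀ w : HeightOneSpectrum B, w.under A ∉ S → ∀ c : K,
      w.valuation L (algebraMap K L c) = (w.under A).valuation K c)
    (hcl : ∀ n : HeightOneSpectrum A → ℤ, (Function.support n).Finite →
      ∃ c : Kˣ, ∀ v, v ∉ S → H83.ordv K v c = n v)
    (x : Lˣ) (hx : x ∈ Set.unit {w : HeightOneSpectrum B | w.under A ∈ S} L)
    (hN : Algebra.norm K (x : L) = 1) :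
    ∃ y : Lˣ, y ∈ Set.unit {w : HeightOneSpectrum B | w.under A ∈ S} L ∧
      (x : L) = σ (y : L) / (y : L) := by
  classical
  -- Hilbert 90
  obtain ⟨z, hz⟩ := exists_div_of_norm_eq_one σ hσ x hN
  have hxw : ∀ w : HeightOneSpectrum B, w.under A ∉ S → w.valuation L (x : L) = 1 :=
    fun w hw => hx w hw
  -- the valuations of `z` outside `T` are invariant under the Galois group
  let H : Subgroup (L ≃ₐ[K] L) :=
    { carrier := {g | ∀ w : HeightOneSpectrum B, w.under A ∉ S →
        w.valuation L (g (z : L)) = w.valuation L (z : L)}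
      mul_mem' := by
        intro g h hg hh w hw
        have hw' : (galComap A g w).under A ∉ S := by rwa [galComap_under]
        have e1 : w.valuation L ((g * h) (z : L)) = (galComap A g w).valuation L (h (z : L)) := by
          rw [galComap_valuation]; rfl
        rw [e1, hh _ hw', galComap_valuation, hg w hw]
      one_mem' := by
        intro w _
        rfl
      inv_mem' := by
        intro g hg w hw
        have hw' : (galComap A g⁻¹ w).under A ∉ S := by rwa [galComap_under]
        have e1 := hg _ hw'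
        rw [galComap_valuation, galComap_valuation] at e1
        have e2 : g⁻¹ (g (z : L)) = (z : L) := by
          change g.symm (g (z : L)) = _
          simp
        rw [e2] at e1
        exact e1.symm }
  have hσH : σ ∈ H := by
    intro w hw
    have h1 : σ (z : L) = (x : L) * (z : L) := by
      rw [← hz]
      field_simp
    rw [h1, map_mul, hxw w hw, one_mul]
  have hall : ∀ g : L ≃ₐ[K] L, ∀ w : HeightOneSpectrum B, w.under A ∉ S →
      w.valuation L (g (z : L)) = w.valuation L (z : L) := fun g =>
    (Subgroup.zpowers_le.2 hσH) (hσ g)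
  -- hence they only depend on the prime below
  have hconst : ∀ w w' : HeightOneSpectrum B, w.under A ∉ S → w.under A = w'.under A →
      w'.valuation L (z : L) = w.valuation L (z : L) := by
    intro w w' hw hww'
    obtain ⟨g, rfl⟩ := exists_galComap_eq (K := K) (L := L) A hww'
    rw [galComap_valuation, hall g w hw]
  -- the divisor of `z` away from `T` comes from `K`
  let n : HeightOneSpectrum A → ℤ := fun v =>
    if h : ∃ w : HeightOneSpectrum B, w.under A = v then H83.ordv L h.choose z else 0
  have hn : (Function.support n).Finite := by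
    refine ((finite_valuation_ne_one (B := B) z).image (fun w => w.under A)).subset ?_
    intro v hv
    have hv' : n v ≠ 0 := hv
    by_cases h : ∃ w : HeightOneSpectrum B, w.under A = v
    · refine ⟨h.choose, ?_, h.choose_spec⟩
      simp only [n, dif_pos h] at hv'
      intro h1
      exact hv' ((H83.ordv_eq_zero_iff _ _).2 h1)
    · simp only [n, dif_neg h] at hv'
      exact absurd rfl hv'
  obtain ⟨c, hc⟩ := hcl n hn
  have hzc : ∀ w : HeightOneSpectrum B, w.under A ∉ S →
      w.valuation L (z : L) = (w.under A).valuation K (c : K) := by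
    intro w hw
    have h : ∃ w' : HeightOneSpectrum B, w'.under A = w.under A := ⟨w, rfl⟩
    have h1 : n (w.under A) = H83.ordv L h.choose z := by simp only [n, dif_pos h]
    have h2 := hc _ hw
    rw [h1, eq_comm, ordv_eq_ordv_iff] at h2
    rw [← h2]
    exact (hconst w h.choose hw h.choose_spec.symm).symm
  refine ⟨z * (Units.map (algebraMap K L : K →* L) c)⁻¹, ?_, ?_⟩
  · intro w hw
    have hw' : w.under A ∉ S := hw
    have hc0 : (w.under A).valuation K (c : K) ≠ 0 := (Valuation.ne_zero_iff _).2 c.ne_zero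
    rw [Units.val_mul, Units.val_inv_eq_inv_val, map_mul, map_inv₀, Units.coe_map,
      MonoidHom.coe_coe, hunr w hw', hzc w hw']
    exact mul_inv_cancel₀ hc0
  · have hc0 : algebraMap K L (c : K) ≠ 0 := by simp
    have hz0 : (z : L) ≠ 0 := z.ne_zero
    rw [Units.val_mul, Units.val_inv_eq_inv_val, Units.coe_map, MonoidHom.coe_coe, map_mul,
      map_inv₀, σ.commutes, ← hz]
    field_simp

/-- At a prime `w` with ramification index one over `K`, the valuation of `w` extends the
valuation of the prime below. -/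
theorem valuation_algebraMap_of_ramificationIdx_eq_one [Module.IsTorsionFree A B]
    (w : HeightOneSpectrum B)
    (he : (w.under A).asIdeal.ramificationIdx' w.asIdeal = 1) (c : K) :
    w.valuation L (algebraMap K L c) = (w.under A).valuation K c := by
  have : w.asIdeal.LiesOver (w.under A).asIdeal := ⟨rfl⟩
  rw [← valuation_liesOver L (w.under A) w c, he, pow_one]

/-- **`H¹(G, L_T) = 0`**, with the unramifiedness hypothesis in terms of ramification indices. -/
theorem exists_sUnit_div_eq_of_norm_eq_one [Module.IsTorsionFree A B] [IsGalois K L]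
    (σ : L ≃ₐ[K] L) (hσ : ∀ g, g ∈ Subgroup.zpowers σ)
    (S : Set (HeightOneSpectrum A))
    (hunr : ∀ w : HeightOneSpectrum B, w.under A ∉ S →
      (w.under A).asIdeal.ramificationIdx' w.asIdeal = 1)
    (hcl : ∀ n : HeightOneSpectrum A → ℤ, (Function.support n).Finite →
      ∃ c : Kˣ, ∀ v, v ∉ S → H83.ordv K v c = n v)
    (x : Lˣ) (hx : x ∈ Set.unit {w : HeightOneSpectrum B | w.under A ∈ S} L)
    (hN : Algebra.norm K (x : L) = 1) :
    ∃ y : Lˣ, y ∈ Set.unit {w : HeightOneSpectrum B | w.under A ∈ S} L ∧
      (x : L) = σ (y : L) / (y : L) :=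
  exists_sUnit_div_eq_of_norm_eq_one_aux A σ hσ S
    (fun w hw c => valuation_algebraMap_of_ramificationIdx_eq_one A w (hunr w hw) c) hcl x hx hN

end AKLB

end

end Fermat.Agent.S55.H82.U
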