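/-
S55 (Program C / C6, first inequality), leaf (H90S) of helper50's `H50/FirstIneqSpec.lean`
(helper82): **Hilbert 90 for `S`-units** of a Kummer layer `N / k`, `S` large.

`sUnitHilbert90Statement : H50.SUnitHilbert90Statement.{u}` (verbatim).

Proof.  `S₀` := the places of `k` corresponding (helper83's dictionary `H83.dictEquiv`) to the
primes of `𝓞 k` in helper83's class-number set (`H83.exists_finset_forall_exists_ordv_eq`) or
below a prime of `𝓞 N` dividing the different `differentIdeal (𝓞 k) (𝓞 N)`.  For `S ⊇ S₀` the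
`S`-units of `N` of the embedding model are the `T`-units of Mathlib (`T` = primes above the
primes of `S`; `mem_sUnitsTop_iff_mem_unit`, from helper24's `mem_sUnitsTop_iff`), `N / k` is
unramified outside `S` (`ramificationIdx'_eq_one_of_not_dvd_differentIdeal`) and the Dedekind
core `U.exists_sUnit_div_eq_of_norm_eq_one` (`H90U.lean`) applies.
-/
import Mathlib
import Fermat.Agent.S55.H82.H90U
import Fermat.Agent.S55.H83.Dict
import Fermat.Agent.S55.H83.ClassNumber
import Fermat.Agent.S55.H24.SUnitStruct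

set_option autoImplicit false
set_option linter.unusedSectionVars false

open NumberField IsDedekindDomain HeightOneSpectrum

noncomputable section

namespace Fermat.Agent.S55.H82

open Fermat.Agent.S55.H8 Fermat.Agent.S55.H88 Fermat.Agent.S55.H50

universe u

attribute [local instance] Fermat.Agent.S55.H88.factOfPrimes

/-! ### Unramified outside the different -/

section Different

variable (A K L : Type*) {B : Type*}
  [CommRing A] [IsDedekindDomain A] [CommRing B] [IsDedekindDomain B] [Algebra A B]
  [Field K] [Field L] [Algebra K L] [Algebra A K] [IsFractionRing A K] [Algebra A L]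
  [IsScalarTower A K L] [Algebra B L] [IsFractionRing B L] [IsScalarTower A B L]
  [IsIntegralClosure B A L] [Algebra.IsIntegral A B] [FiniteDimensional K L]
  [Algebra.IsSeparable K L] [Module.IsTorsionFree A B] [Module.Finite A B]

include K L in
/-- The different ideal is nonzero (Mathlib's `differentIdeal_ne_bot`, for arbitrary fraction
fields). -/
theorem differentIdeal_ne_bot_of_aklb : differentIdeal A B ≠ ⊥ := by
  rw [ne_eq, ← FractionalIdeal.coeIdeal_inj (K := L), coeIdeal_differentIdeal A K L B]
  simp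

include K L in
/-- A prime of `B` which does not divide the different has ramification index one. -/
theorem ramificationIdx'_eq_one_of_not_dvd_differentIdeal (w : HeightOneSpectrum B)
    (h : ¬ w.asIdeal ∣ differentIdeal A B) :
    (w.under A).asIdeal.ramificationIdx' w.asIdeal = 1 := by
  have hmax : (w.under A).asIdeal.IsMaximal := (w.under A).isMaximal
  apply Ideal.ramificationIdx'_spec
  · rw [pow_one]
    exact Ideal.map_comap_le
  · intro hle
    apply h
    have h2 := pow_sub_one_dvd_differentIdeal_aux A K L w.asIdeal (e := 2) (by norm_num)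
      (w.under A).ne_bot (Ideal.dvd_iff_le.2 hle)
    simpa using h2

end Different

/-! ### The dictionary for a layer `N / k` -/

section Dict

variable (k N : Type u) [Field k] [NumberField k] [Field N] [NumberField N] [Algebra k N]

/-- (DICT-RES) The prime of an embedding of `N` lies over the prime of its restriction to `k`. -/
theorem heightOneOfEmb_under (q : ℕ) [Fact q.Prime] (τ : N →+* PadicAlgCl q) :
    (H83.heightOneOfEmb q τ).under (𝓞 k) = H83.heightOneOfEmb q (τ.comp (algebraMap k N)) := by
  apply HeightOneSpectrum.ext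
  ext x
  show algebraMap (𝓞 k) (𝓞 N) x ∈ H83.primeOfEmb q τ ↔
    x ∈ H83.primeOfEmb q (τ.comp (algebraMap k N))
  rw [H83.mem_primeOfEmb, H83.mem_primeOfEmb, RingHom.comp_apply,
    ← IsScalarTower.algebraMap_apply (𝓞 k) (𝓞 N) N, ← IsScalarTower.algebraMap_apply (𝓞 k) k N]

/-- The `S`-units of `N` in the embedding model are the `T`-units of Mathlib, `T` the primes of
`𝓞 N` above the primes of `𝓞 k` corresponding to `S`. -/
theorem mem_sUnitsTop_iff_mem_unit (S : Finset (FinPlace k)) (x : Nˣ) :
    x ∈ sUnitsTop k N S ↔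
      x ∈ Set.unit {w : HeightOneSpectrum (𝓞 N) |
        w.under (𝓞 k) ∈ H83.dictEquiv k '' (S : Set (FinPlace k))} N := by
  rw [H24.mem_sUnitsTop_iff]
  constructor
  · intro h w hw
    obtain ⟨v, rfl⟩ := H83.dictFun_surjective (K := N) w
    obtain ⟨q, P⟩ := v
    obtain ⟨τ, rfl⟩ : ∃ τ, placeOf (q : ℕ) τ = P := Quotient.exists_rep P
    have hw' : (⟨q, placeOf (q : ℕ) (τ.comp (algebraMap k N))⟩ : FinPlace k) ∉ S := by
      intro hmem
      apply hw
      refine ⟨_, hmem, ?_⟩
      show H83.dictFun k ⟨q, placeOf (q : ℕ) (τ.comp (algebraMap k N))⟩ =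
        (H83.dictFun N ⟨q, placeOf (q : ℕ) τ⟩).under (𝓞 k)
      rw [H83.dictFun_mk, H83.dictFun_mk, heightOneOfEmb_under]
    have h1 := h q τ hw'
    show (H83.dictFun N ⟨q, placeOf (q : ℕ) τ⟩).valuation N (x : N) = 1
    rw [H83.dictFun_mk]
    exact (H83.norm_emb_eq_one_iff (q : ℕ) τ x.ne_zero).1 h1
  · intro h q τ hq
    have hw : H83.heightOneOfEmb (q : ℕ) τ ∉ {w : HeightOneSpectrum (𝓞 N) |
        w.under (𝓞 k) ∈ H83.dictEquiv k '' (S : Set (FinPlace k))} := by
      rintro ⟨v, hvS, hv⟩
      have hv' : H83.dictFun k v =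
          H83.dictFun k ⟨q, placeOf (q : ℕ) (τ.comp (algebraMap k N))⟩ := by
        rw [H83.dictFun_mk, ← heightOneOfEmb_under]
        exact hv
      have hveq := H83.dictFun_injective (K := k) hv'
      rw [hveq] at hvS
      exact hq hvS
    exact (H83.norm_emb_eq_one_iff (q : ℕ) τ x.ne_zero).2 (h _ hw)

end Dict

/-! ### The leaf -/

/-- **(H90S)** Hilbert 90 for `S`-units, `S` large. -/
theorem sUnitHilbert90Statement : SUnitHilbert90Statement.{u} := by
  intro k N _ _ _ _ _ p hp g L
  classical
  have hgal : IsGalois k N := L.isGalois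
  -- the class-number set of `k`
  obtain ⟨Scl, hScl⟩ := H83.exists_finset_forall_exists_ordv_eq (R := 𝓞 k) (K := k)
  -- the primes of `k` below the different
  have hdiff : differentIdeal (𝓞 k) (𝓞 N) ≠ ⊥ := differentIdeal_ne_bot_of_aklb (𝓞 k) k N
  have hfin : {w : HeightOneSpectrum (𝓞 N) | w.asIdeal ∣ differentIdeal (𝓞 k) (𝓞 N)}.Finite :=
    Ideal.finite_factors hdiff
  let Sram : Finset (HeightOneSpectrum (𝓞 k)) := hfin.toFinset.image fun w => w.under (𝓞 k)
  refine ⟨(Scl ∪ Sram).image (H83.dictEquiv k).symm, fun S hS x hx hN => ?_⟩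
  set S' : Set (HeightOneSpectrum (𝓞 k)) := H83.dictEquiv k '' (S : Set (FinPlace k)) with hS'
  have hsub : ∀ v ∈ Scl ∪ Sram, v ∈ S' := by
    intro v hv
    exact ⟨(H83.dictEquiv k).symm v, hS (Finset.mem_image_of_mem _ hv),
      (H83.dictEquiv k).apply_symm_apply v⟩
  have hunr : ∀ w : HeightOneSpectrum (𝓞 N), w.under (𝓞 k) ∉ S' →
      (w.under (𝓞 k)).asIdeal.ramificationIdx' w.asIdeal = 1 := by
    intro w hw
    apply ramificationIdx'_eq_one_of_not_dvd_differentIdeal (𝓞 k) k N
    intro hdvd
    exact hw (hsub _ (Finset.mem_union_right _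
      (Finset.mem_image_of_mem _ (hfin.mem_toFinset.2 hdvd))))
  have hcl : ∀ n : HeightOneSpectrum (𝓞 k) → ℤ, (Function.support n).Finite →
      ∃ c : kˣ, ∀ v, v ∉ S' → H83.ordv k v c = n v := by
    intro n hn
    obtain ⟨c, hc⟩ := hScl n hn
    exact ⟨c, fun v hv => hc v fun hvcl => hv (hsub v (Finset.mem_union_left _ hvcl))⟩
  have hxT := (mem_sUnitsTop_iff_mem_unit k N S x).1 hx
  obtain ⟨y, hy, hxy⟩ :=
    U.exists_sUnit_div_eq_of_norm_eq_one (𝓞 k) L.σ L.gen S' hunr hcl x hxT hN
  exact ⟨y, (mem_sUnitsTop_iff_mem_unit k N S y).2 hy, hxy⟩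

end Fermat.Agent.S55.H82
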