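/-
S55 (Poitou–Tate), Program C, package C6 (first inequality), leaf LATTICE (helper50 #1966 (b2)).
Mathlib + `H84.hIdx` only.  helper82.

Two `ℤ`-lattices spanning the same real representation of a cyclic group have the same Herbrand
quotient.

* `exists_intMatrix_intertwiner` (LAT-1): a real invertible intertwiner between two integer
  matrices can be replaced by an integer one with nonzero determinant (the entries of the real
  matrix span a finite-dimensional `ℚ`-space; the determinant of a rational combination of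
  rational intertwiners is a nonzero polynomial, hence nonzero at a rational point).
* `exists_equivariant_embedding(_fin / _of_isZLattice)` (LAT-2): an injective equivariant
  `ℤ`-linear map with finite-index range between two such lattices.
* `hIdx_mul_of_finiteIndex` (LAT-3): the Herbrand indices `H84.hIdx` are transported along an
  injective finite-index embedding (Herbrand's lemma + `h = 1` for the finite quotient).
* `herbrand_eq_of_equivariant_embedding`, `herbrand_eq_of_isZLattice` (LAT): the statement for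
  the cyclic Herbrand pair `(s - 1, 1 + s + ⋯ + s ^ (n - 1))`.
-/
import Mathlib
import Fermat.Agent.S55.H84.Herbrand

set_option autoImplicit false

namespace Fermat.Agent.S55.H82

open Matrix

/-- Step 1: a real matrix is a finite `ℝ`-combination, with `ℚ`-linearly independent coefficients,
of rational matrices. -/
theorem exists_rat_decomposition {r : ℕ} (P : Matrix (Fin r) (Fin r) ℝ) :
    ∃ (m : ℕ) (u : Fin m → ℝ) (Q : Fin m → Matrix (Fin r) (Fin r) ℚ),
      (∀ c : Fin m → ℚ, ∑ k, (c k : ℝ) * u k = 0 → ∀ k, c k = 0) ∧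
      ∀ i j, P i j = ∑ k, u k * ((Q k i j : ℚ) : ℝ) := by
  classical
  set U : Submodule ℚ ℝ := Submodule.span ℚ (Set.range (fun ij : Fin r × Fin r => P ij.1 ij.2))
    with hU
  have : FiniteDimensional ℚ U := FiniteDimensional.span_of_finite ℚ (Set.finite_range _)
  set b := Module.finBasis ℚ U with hb
  have hmem : ∀ i j, P i j ∈ U := fun i j => Submodule.subset_span ⟨(i, j), rfl⟩
  refine ⟨Module.finrank ℚ U, fun k => (b k : ℝ), fun k i j => b.repr ⟨P i j, hmem i j⟩ k, ?_, ?_⟩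
  · intro c hc k
    have h1 : ∑ k, c k • b k = 0 := by
      apply Subtype.ext
      rw [Submodule.coe_sum, Submodule.coe_zero, ← hc]
      refine Finset.sum_congr rfl fun k _ => ?_
      rw [Submodule.coe_smul, Rat.smul_def]
    exact Fintype.linearIndependent_iff.1 b.linearIndependent c h1 k
  · intro i j
    have h1 := congrArg (Subtype.val) (b.sum_repr ⟨P i j, hmem i j⟩)
    rw [Submodule.coe_sum] at h1
    have h2 : P i j = ∑ k, ((b.repr ⟨P i j, hmem i j⟩ k • b k : U) : ℝ) := h1.symm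
    rw [h2]
    refine Finset.sum_congr rfl fun k _ => ?_
    rw [Submodule.coe_smul, Rat.smul_def, mul_comm]

/-- Step 2: a real invertible intertwiner between two rational matrices can be replaced by a
rational one. -/
theorem exists_ratMatrix_intertwiner {r : ℕ} (A₁ A₂ : Matrix (Fin r) (Fin r) ℚ)
    (P : Matrix (Fin r) (Fin r) ℝ) (hP : P.det ≠ 0)
    (h : P * A₁.map (algebraMap ℚ ℝ) = A₂.map (algebraMap ℚ ℝ) * P) :
    ∃ Q : Matrix (Fin r) (Fin r) ℚ, Q.det ≠ 0 ∧ Q * A₁ = A₂ * Q := by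
  classical
  obtain ⟨m, u, Q, hind, hdec⟩ := exists_rat_decomposition P
  have hPdec : P = ∑ k, u k • (Q k).map (algebraMap ℚ ℝ) := by
    ext i j
    rw [hdec i j, Matrix.sum_apply]
    exact Finset.sum_congr rfl fun k _ => rfl
  -- each `Q k` intertwines
  have hQ : ∀ k, Q k * A₁ = A₂ * Q k := by
    have h0 : ∑ k, u k • ((Q k * A₁ - A₂ * Q k).map (algebraMap ℚ ℝ)) = 0 := by
      have e : ∀ k, (Q k * A₁ - A₂ * Q k).map (algebraMap ℚ ℝ) =
          (Q k).map (algebraMap ℚ ℝ) * A₁.map (algebraMap ℚ ℝ) -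
            A₂.map (algebraMap ℚ ℝ) * (Q k).map (algebraMap ℚ ℝ) := by
        intro k
        change (algebraMap ℚ ℝ).mapMatrix (Q k * A₁ - A₂ * Q k) = _
        rw [map_sub, map_mul, map_mul]
        rfl
      simp only [e, smul_sub, Finset.sum_sub_distrib]
      rw [sub_eq_zero]
      have e1 : ∑ k, u k • ((Q k).map (algebraMap ℚ ℝ) * A₁.map (algebraMap ℚ ℝ)) =
          P * A₁.map (algebraMap ℚ ℝ) := by
        rw [hPdec, Finset.sum_mul]
        exact Finset.sum_congr rfl fun k _ => (smul_mul_assoc _ _ _).symm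
      have e2 : ∑ k, u k • (A₂.map (algebraMap ℚ ℝ) * (Q k).map (algebraMap ℚ ℝ)) =
          A₂.map (algebraMap ℚ ℝ) * P := by
        rw [hPdec, Finset.mul_sum]
        exact Finset.sum_congr rfl fun k _ => (mul_smul_comm _ _ _).symm
      rw [e1, e2, h]
    intro k
    rw [← sub_eq_zero]
    ext i j
    have h1 := congrFun (congrFun h0 i) j
    rw [Matrix.sum_apply] at h1
    have h1' : ∑ c, (u c • (Q c * A₁ - A₂ * Q c).map (algebraMap ℚ ℝ)) i j = 0 := h1
    have h2 : ∑ k, (((Q k * A₁ - A₂ * Q k) i j : ℚ) : ℝ) * u k = 0 := by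
      rw [← h1']
      exact Finset.sum_congr rfl fun k _ => by
        rw [Matrix.smul_apply, Matrix.map_apply, smul_eq_mul, mul_comm]; rfl
    exact hind (fun k => (Q k * A₁ - A₂ * Q k) i j) h2 k
  -- the determinant polynomial
  set Mx : Matrix (Fin r) (Fin r) (MvPolynomial (Fin m) ℚ) :=
    ∑ k, (MvPolynomial.X k : MvPolynomial (Fin m) ℚ) • (Q k).map (MvPolynomial.C) with hMx
  have hev : ∀ t : Fin m → ℚ, MvPolynomial.eval t Mx.det = (∑ k, t k • Q k).det := by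
    intro t
    rw [RingHom.map_det]
    congr 1
    rw [hMx, map_sum]
    refine Finset.sum_congr rfl fun k _ => ?_
    ext i j
    simp [RingHom.mapMatrix_apply, Matrix.smul_apply]
  have hevR : MvPolynomial.aeval u Mx.det = P.det := by
    rw [AlgHom.map_det]
    congr 1
    rw [hPdec, hMx, map_sum]
    refine Finset.sum_congr rfl fun k _ => ?_
    ext i j
    simp [AlgHom.mapMatrix_apply, Matrix.smul_apply]
  have hp : Mx.det ≠ 0 := by
    intro h0
    rw [h0, map_zero] at hevR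
    exact hP hevR.symm
  obtain ⟨t, ht⟩ : ∃ t : Fin m → ℚ, MvPolynomial.eval t Mx.det ≠ 0 := by
    by_contra hcon
    push Not at hcon
    exact hp (MvPolynomial.funext fun t => by rw [hcon t, map_zero])
  refine ⟨∑ k, t k • Q k, by rwa [← hev t], ?_⟩
  rw [Finset.sum_mul, Finset.mul_sum]
  exact Finset.sum_congr rfl fun k _ => by rw [smul_mul_assoc, mul_smul_comm, hQ k]

/-- **(LAT-1)** A real invertible intertwiner between two integer matrices can be replaced by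
an integer intertwiner with nonzero determinant. -/
theorem exists_intMatrix_intertwiner {r : ℕ} (A₁ A₂ : Matrix (Fin r) (Fin r) ℤ)
    (P : Matrix (Fin r) (Fin r) ℝ) (hP : P.det ≠ 0)
    (h : P * A₁.map (Int.cast : ℤ → ℝ) = A₂.map (Int.cast : ℤ → ℝ) * P) :
    ∃ Q : Matrix (Fin r) (Fin r) ℤ, Q.det ≠ 0 ∧ Q * A₁ = A₂ * Q := by
  classical
  have e : ∀ A : Matrix (Fin r) (Fin r) ℤ,
      (A.map (Int.cast : ℤ → ℚ)).map (algebraMap ℚ ℝ) = A.map (Int.cast : ℤ → ℝ) := by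
    intro A
    ext i j
    simp
  obtain ⟨Q', hQ'det, hQ'⟩ := exists_ratMatrix_intertwiner (A₁.map (Int.cast : ℤ → ℚ))
    (A₂.map (Int.cast : ℤ → ℚ)) P hP (by rw [e, e]; exact h)
  obtain ⟨b, hb⟩ := IsLocalization.exist_integer_multiples_of_finite (nonZeroDivisors ℤ)
    (fun ij : Fin r × Fin r => Q' ij.1 ij.2)
  choose z hz using hb
  have hb0 : ((b : ℤ) : ℚ) ≠ 0 := by
    have := nonZeroDivisors.ne_zero b.2
    exact_mod_cast this
  set Q : Matrix (Fin r) (Fin r) ℤ := Matrix.of fun i j => z (i, j) with hQ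
  have hQmap : Q.map (Int.cast : ℤ → ℚ) = ((b : ℤ) : ℚ) • Q' := by
    ext i j
    have := hz (i, j)
    simp only [zsmul_eq_mul, eq_intCast] at this
    simp [hQ, this]
  refine ⟨Q, ?_, ?_⟩
  · intro h0
    have h1 : (Q.map (Int.cast : ℤ → ℚ)).det = 0 := by
      have := congrArg (Int.cast : ℤ → ℚ) h0
      rw [Int.cast_zero] at this
      rw [← this]
      exact ((Int.castRingHom ℚ).map_det Q).symm
    rw [hQmap, Matrix.det_smul, Fintype.card_fin] at h1
    rcases mul_eq_zero.1 h1 with h2 | h2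
    · exact pow_ne_zero r hb0 h2
    · exact hQ'det h2
  · apply Matrix.map_injective (Int.cast_injective (α := ℚ))
    change (Int.castRingHom ℚ).mapMatrix (Q * A₁) = (Int.castRingHom ℚ).mapMatrix (A₂ * Q)
    rw [map_mul, map_mul]
    change Q.map (Int.cast : ℤ → ℚ) * A₁.map (Int.cast : ℤ → ℚ) =
      A₂.map (Int.cast : ℤ → ℚ) * Q.map (Int.cast : ℤ → ℚ)
    rw [hQmap, smul_mul_assoc, mul_smul_comm, hQ']

/-- A submodule of a finitely generated `ℤ`-module containing `d • M` (`d ≠ 0`) has finite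
index. -/
theorem finiteIndex_of_smul_mem {M : Type*} [AddCommGroup M] [Module.Finite ℤ M]
    (N : Submodule ℤ M) (d : ℤ) (hd : d ≠ 0) (h : ∀ y : M, d • y ∈ N) :
    N.toAddSubgroup.FiniteIndex := by
  have h1 : Module.IsTorsion ℤ (M ⧸ N) := by
    intro x
    obtain ⟨y, rfl⟩ := Submodule.Quotient.mk_surjective N x
    refine ⟨⟨d, mem_nonZeroDivisors_of_ne_zero hd⟩, ?_⟩
    change d • (Submodule.Quotient.mk y : M ⧸ N) = 0
    rw [← Submodule.Quotient.mk_smul, Submodule.Quotient.mk_eq_zero]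
    exact h y
  have h2 : Finite (M ⧸ N) := Module.finite_of_fg_torsion _ h1
  have h3 : Finite (M ⧸ N.toAddSubgroup) := h2
  exact AddSubgroup.finiteIndex_of_finite_quotient

/-- The matrix of `S` in the real basis `v` is the integer matrix of `s` in the basis `b`,
when `ι ∘ s = S ∘ ι` and `ι (b i) = v i`. -/
theorem toMatrix_eq_map_of_basis {V : Type*} [AddCommGroup V] [Module ℝ V] (S : V →ₗ[ℝ] V)
    {r : ℕ} {M : Type*} [AddCommGroup M] (s : M →ₗ[ℤ] M) (ι : M →ₗ[ℤ] V)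
    (h : ∀ m, ι (s m) = S (ι m)) (b : Module.Basis (Fin r) ℤ M) (v : Module.Basis (Fin r) ℝ V)
    (hb : ∀ i, ι (b i) = v i) :
    LinearMap.toMatrix v v S = (LinearMap.toMatrix b b s).map (Int.cast : ℤ → ℝ) := by
  classical
  ext i j
  rw [LinearMap.toMatrix_apply, Matrix.map_apply, LinearMap.toMatrix_apply, ← hb j, ← h]
  conv_lhs => rw [← b.sum_repr (s (b j))]
  rw [map_sum, map_sum, Finsupp.finsetSum_apply]
  have : ∀ k, v.repr (ι (b.repr (s (b j)) k • b k)) i =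
      if k = i then ((b.repr (s (b j)) k : ℤ) : ℝ) else 0 := by
    intro k
    rw [map_zsmul, hb, map_zsmul, Module.Basis.repr_self, Finsupp.smul_apply,
      Finsupp.single_apply]
    split_ifs <;> simp
  rw [Finset.sum_congr rfl (fun k _ => this k)]
  simp

/-- **(LAT-2)**, basis form.  Two free `ℤ`-modules of rank `r` with endomorphisms `s₁`, `s₂`,
mapped equivariantly into a real vector space `V` with an endomorphism `S` so that a `ℤ`-basis of
each goes to an `ℝ`-basis of `V`: then there is an injective equivariant map `M₁ → M₂` with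
finite-index range. -/
theorem exists_equivariant_embedding_fin
    {M₁ M₂ V : Type*} [AddCommGroup M₁] [AddCommGroup M₂] [AddCommGroup V] [Module ℝ V]
    (s₁ : M₁ →ₗ[ℤ] M₁) (s₂ : M₂ →ₗ[ℤ] M₂) (S : V →ₗ[ℝ] V)
    (ι₁ : M₁ →ₗ[ℤ] V) (ι₂ : M₂ →ₗ[ℤ] V)
    (h₁ : ∀ m, ι₁ (s₁ m) = S (ι₁ m)) (h₂ : ∀ m, ι₂ (s₂ m) = S (ι₂ m))
    {r : ℕ} (b₁ : Module.Basis (Fin r) ℤ M₁) (v₁ : Module.Basis (Fin r) ℝ V)
    (hb₁ : ∀ i, ι₁ (b₁ i) = v₁ i)
    (b₂ : Module.Basis (Fin r) ℤ M₂) (v₂ : Module.Basis (Fin r) ℝ V)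
    (hb₂ : ∀ i, ι₂ (b₂ i) = v₂ i) :
    ∃ j : M₁ →ₗ[ℤ] M₂, Function.Injective j ∧ (LinearMap.range j).toAddSubgroup.FiniteIndex ∧
      ∀ m, j (s₁ m) = s₂ (j m) := by
  classical
  set A₁ := LinearMap.toMatrix b₁ b₁ s₁ with hA₁
  set A₂ := LinearMap.toMatrix b₂ b₂ s₂ with hA₂
  set P := LinearMap.toMatrix v₁ v₂ LinearMap.id with hP
  have hPdet : P.det ≠ 0 := by
    have h1 : P * LinearMap.toMatrix v₂ v₁ LinearMap.id = 1 := by
      rw [hP, ← LinearMap.toMatrix_comp, LinearMap.comp_id, LinearMap.toMatrix_id]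
    intro h0
    have h2 := congrArg Matrix.det h1
    rw [Matrix.det_mul, h0, zero_mul, Matrix.det_one] at h2
    exact zero_ne_one h2
  have hint : P * A₁.map (Int.cast : ℤ → ℝ) = A₂.map (Int.cast : ℤ → ℝ) * P := by
    rw [hA₁, hA₂, ← toMatrix_eq_map_of_basis S s₁ ι₁ h₁ b₁ v₁ hb₁, ← toMatrix_eq_map_of_basis S s₂ ι₂ h₂ b₂ v₂ hb₂, hP,
      ← LinearMap.toMatrix_comp, ← LinearMap.toMatrix_comp, LinearMap.id_comp, LinearMap.comp_id]
  obtain ⟨Q, hQdet, hQ⟩ := exists_intMatrix_intertwiner A₁ A₂ P hPdet hint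
  refine ⟨Matrix.toLin b₁ b₂ Q, ?_, ?_, ?_⟩
  · -- injective
    rw [← LinearMap.ker_eq_bot, LinearMap.ker_eq_bot']
    intro m hm
    have h1 : Q *ᵥ (b₁.repr m : Fin r → ℤ) = 0 := by
      have h2 := congrArg (fun y => (b₂.repr y : Fin r → ℤ)) hm
      simp only [map_zero, Finsupp.coe_zero] at h2
      rw [← h2]
      funext i
      rw [Matrix.toLin_apply]
      simp [Finsupp.single_apply]
    have h3 := Matrix.eq_zero_of_mulVec_eq_zero hQdet h1
    apply b₁.repr.injective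
    ext i
    rw [map_zero, Finsupp.zero_apply]
    exact congrFun h3 i
  · -- finite index
    have : Module.Finite ℤ M₂ := Module.Finite.of_basis b₂
    refine finiteIndex_of_smul_mem _ Q.det hQdet fun y => ?_
    refine ⟨Matrix.toLin b₂ b₁ Q.adjugate y, ?_⟩
    rw [← LinearMap.comp_apply, ← Matrix.toLin_mul, Matrix.mul_adjugate, map_smul,
      Matrix.toLin_one, LinearMap.smul_apply, LinearMap.id_apply]
  · intro m
    have h1 : Matrix.toLin b₁ b₂ Q ∘ₗ s₁ = s₂ ∘ₗ Matrix.toLin b₁ b₂ Q := by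
      conv_lhs => rw [← Matrix.toLin_toMatrix b₁ b₁ s₁]
      conv_rhs => rw [← Matrix.toLin_toMatrix b₂ b₂ s₂]
      rw [← Matrix.toLin_mul, ← Matrix.toLin_mul, ← hA₁, ← hA₂, hQ]
    exact LinearMap.congr_fun h1 m

/-! ### (LAT-3) transfer of the Herbrand indices along a finite-index embedding -/

section Transfer

open Fermat.Agent.S55.H84

variable {M₁ M₂ : Type*} [AddCommGroup M₁] [AddCommGroup M₂]

/-- **(LAT-3)** If `j : M₁ → M₂` is injective with finite-index range and intertwines the pairs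
`(f₁, g₁)`, `(f₂, g₂)` (with `f₂ ∘ g₂ = 0 = g₂ ∘ f₂`), then the Herbrand quotients agree:
`h₀(M₁) h₁(M₂) = h₁(M₁) h₀(M₂)`. -/
theorem hIdx_mul_of_finiteIndex (j : M₁ →+ M₂) (hj : Function.Injective j)
    (hfin : j.range.FiniteIndex) {f₁ g₁ : M₁ →+ M₁} {f₂ g₂ : M₂ →+ M₂}
    (hjf : ∀ a, j (f₁ a) = f₂ (j a)) (hjg : ∀ a, j (g₁ a) = g₂ (j a))
    (hfg : ∀ b, f₂ (g₂ b) = 0) (hgf : ∀ b, g₂ (f₂ b) = 0) :
    hIdx f₁ g₁ * hIdx g₂ f₂ = hIdx g₁ f₁ * hIdx f₂ g₂ ∧
      ((hIdx f₁ g₁ ≠ 0 ∧ hIdx g₁ f₁ ≠ 0) ↔ (hIdx f₂ g₂ ≠ 0 ∧ hIdx g₂ f₂ ≠ 0)) := by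
  have hf : j.range ≤ j.range.comap f₂ := by
    rintro _ ⟨a, rfl⟩
    exact ⟨f₁ a, hjf a⟩
  have hg : j.range ≤ j.range.comap g₂ := by
    rintro _ ⟨a, rfl⟩
    exact ⟨g₁ a, hjg a⟩
  set fC : M₂ ⧸ j.range →+ M₂ ⧸ j.range := QuotientAddGroup.map _ _ f₂ hf with hfC
  set gC : M₂ ⧸ j.range →+ M₂ ⧸ j.range := QuotientAddGroup.map _ _ g₂ hg with hgC
  have hπ : Function.Surjective (QuotientAddGroup.mk' j.range) :=
    QuotientAddGroup.mk'_surjective _
  have hex : j.range = (QuotientAddGroup.mk' j.range).ker := (QuotientAddGroup.ker_mk' _).symm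
  have hπf : ∀ b, QuotientAddGroup.mk' j.range (f₂ b) = fC (QuotientAddGroup.mk' j.range b) :=
    fun b => rfl
  have hπg : ∀ b, QuotientAddGroup.mk' j.range (g₂ b) = gC (QuotientAddGroup.mk' j.range b) :=
    fun b => rfl
  have hCfg : ∀ c, fC (gC c) = 0 := by
    intro c
    obtain ⟨b, rfl⟩ := hπ c
    rw [← hπg, ← hπf, hfg, map_zero]
  have hCgf : ∀ c, gC (fC c) = 0 := by
    intro c
    obtain ⟨b, rfl⟩ := hπ c
    rw [← hπf, ← hπg, hgf, map_zero]
  have : Finite (M₂ ⧸ j.range) := AddSubgroup.finite_quotient_of_finiteIndex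
  obtain ⟨hC1, hC2⟩ := hIdx_eq_of_finite hCfg hCgf
  obtain ⟨-, hC3⟩ := hIdx_eq_of_finite hCgf hCfg
  have hmul := hIdx_mul_of_exact hj hπ hex hjf hjg hπf hπg hfg hgf
  refine ⟨?_, ?_, ?_⟩
  · rw [← hC1] at hmul
    have h1 : hIdx fC gC * (hIdx f₁ g₁ * hIdx g₂ f₂) = hIdx fC gC * (hIdx g₁ f₁ * hIdx f₂ g₂) := by
      linear_combination hmul
    exact Nat.eq_of_mul_eq_mul_left (Nat.pos_of_ne_zero hC2) h1
  · rintro ⟨h1, h2⟩
    exact hIdx_ne_zero_of_exact hj hπ hex hjf hjg hπf hπg hfg hgf h1 h2 hC2 hC3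
  · rintro ⟨h1, h2⟩
    exact hIdx_ne_zero_of_exact_left hj hπ hex hjf hjg hπf hπg hfg hgf hC2 hC3 h1 h2

end Transfer

/-! ### (LAT-2) for arbitrary index types and for `ℤ`-lattices of a real vector space -/

/-- **(LAT-2)**, general index types. -/
theorem exists_equivariant_embedding
    {M₁ M₂ V : Type*} [AddCommGroup M₁] [AddCommGroup M₂] [AddCommGroup V] [Module ℝ V]
    (s₁ : M₁ →ₗ[ℤ] M₁) (s₂ : M₂ →ₗ[ℤ] M₂) (S : V →ₗ[ℝ] V)
    (ι₁ : M₁ →ₗ[ℤ] V) (ι₂ : M₂ →ₗ[ℤ] V)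
    (h₁ : ∀ m, ι₁ (s₁ m) = S (ι₁ m)) (h₂ : ∀ m, ι₂ (s₂ m) = S (ι₂ m))
    {κ₁ κ₂ : Type*} [Fintype κ₁] [Fintype κ₂]
    (b₁ : Module.Basis κ₁ ℤ M₁) (v₁ : Module.Basis κ₁ ℝ V) (hb₁ : ∀ i, ι₁ (b₁ i) = v₁ i)
    (b₂ : Module.Basis κ₂ ℤ M₂) (v₂ : Module.Basis κ₂ ℝ V) (hb₂ : ∀ i, ι₂ (b₂ i) = v₂ i) :
    ∃ j : M₁ →ₗ[ℤ] M₂, Function.Injective j ∧ (LinearMap.range j).toAddSubgroup.FiniteIndex ∧
      ∀ m, j (s₁ m) = s₂ (j m) := by
  classical
  have hc₁ : Fintype.card κ₁ = Module.finrank ℝ V := (Module.finrank_eq_card_basis v₁).symm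
  have hc₂ : Fintype.card κ₂ = Module.finrank ℝ V := (Module.finrank_eq_card_basis v₂).symm
  set e₁ := Fintype.equivFinOfCardEq hc₁
  set e₂ := Fintype.equivFinOfCardEq hc₂
  exact exists_equivariant_embedding_fin s₁ s₂ S ι₁ ι₂ h₁ h₂ (b₁.reindex e₁) (v₁.reindex e₁)
    (fun i => by rw [Module.Basis.reindex_apply, Module.Basis.reindex_apply, hb₁])
    (b₂.reindex e₂) (v₂.reindex e₂)
    (fun i => by rw [Module.Basis.reindex_apply, Module.Basis.reindex_apply, hb₂])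

/-- **(LAT-2)**, lattice form: two `ℤ`-lattices `L₁`, `L₂` of a finite-dimensional real vector
space `E`, both stable under an endomorphism `S` of `E`: there is an injective `S`-equivariant
`ℤ`-linear map `L₁ → L₂` with finite-index range. -/
theorem exists_equivariant_embedding_of_isZLattice
    {E : Type*} [NormedAddCommGroup E] [NormedSpace ℝ E] [FiniteDimensional ℝ E]
    (L₁ L₂ : Submodule ℤ E) [DiscreteTopology L₁] [IsZLattice ℝ L₁]
    [DiscreteTopology L₂] [IsZLattice ℝ L₂] (S : E →ₗ[ℝ] E)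
    (hS₁ : ∀ x ∈ L₁, S x ∈ L₁) (hS₂ : ∀ x ∈ L₂, S x ∈ L₂) :
    ∃ j : L₁ →ₗ[ℤ] L₂, Function.Injective j ∧ (LinearMap.range j).toAddSubgroup.FiniteIndex ∧
      ∀ m : L₁, ((j ⟨S m, hS₁ m m.2⟩ : L₂) : E) = S (j m) := by
  classical
  have : Module.Free ℤ L₁ := ZLattice.module_free ℝ L₁
  have : Module.Free ℤ L₂ := ZLattice.module_free ℝ L₂
  have : Module.Finite ℤ L₁ := ZLattice.module_finite ℝ L₁
  have : Module.Finite ℤ L₂ := ZLattice.module_finite ℝ L₂
  set s₁ : L₁ →ₗ[ℤ] L₁ := (S.restrictScalars ℤ).restrict hS₁ with hs₁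
  set s₂ : L₂ →ₗ[ℤ] L₂ := (S.restrictScalars ℤ).restrict hS₂ with hs₂
  obtain ⟨j, hj1, hj2, hj3⟩ := exists_equivariant_embedding s₁ s₂ S L₁.subtype L₂.subtype
    (fun m => rfl) (fun m => rfl)
    (Module.Free.chooseBasis ℤ L₁) ((Module.Free.chooseBasis ℤ L₁).ofZLatticeBasis ℝ L₁)
    (fun i => (Module.Basis.ofZLatticeBasis_apply ℝ L₁ _ i).symm)
    (Module.Free.chooseBasis ℤ L₂) ((Module.Free.chooseBasis ℤ L₂).ofZLatticeBasis ℝ L₂)
    (fun i => (Module.Basis.ofZLatticeBasis_apply ℝ L₂ _ i).symm)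
  refine ⟨j, hj1, hj2, fun m => ?_⟩
  have := hj3 m
  exact congrArg Subtype.val this

/-! ### (LAT) the cyclic Herbrand pair `(s - 1, 1 + s + ⋯ + s ^ (n - 1))` -/

section Cyclic

open Fermat.Agent.S55.H84

/-- `s - 1` as an additive endomorphism. -/
noncomputable def subOne {M : Type*} [AddCommGroup M] (s : M →ₗ[ℤ] M) : M →+ M :=
  (s - 1).toAddMonoidHom

/-- `1 + s + ⋯ + s ^ (n - 1)` as an additive endomorphism. -/
noncomputable def geomSum {M : Type*} [AddCommGroup M] (s : M →ₗ[ℤ] M) (n : ℕ) : M →+ M :=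
  (∑ k ∈ Finset.range n, s ^ k).toAddMonoidHom

theorem subOne_apply {M : Type*} [AddCommGroup M] (s : M →ₗ[ℤ] M) (m : M) :
    subOne s m = s m - m := rfl

theorem geomSum_apply {M : Type*} [AddCommGroup M] (s : M →ₗ[ℤ] M) (n : ℕ) (m : M) :
    geomSum s n m = ∑ k ∈ Finset.range n, (s ^ k) m := by
  simp [geomSum, LinearMap.sum_apply]

theorem subOne_geomSum {M : Type*} [AddCommGroup M] (s : M →ₗ[ℤ] M) (n : ℕ) (hn : s ^ n = 1)
    (m : M) : subOne s (geomSum s n m) = 0 := by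
  have h : (s - 1) * ∑ k ∈ Finset.range n, s ^ k = 0 := by rw [mul_geom_sum, hn, sub_self]
  exact LinearMap.congr_fun h m

theorem geomSum_subOne {M : Type*} [AddCommGroup M] (s : M →ₗ[ℤ] M) (n : ℕ) (hn : s ^ n = 1)
    (m : M) : geomSum s n (subOne s m) = 0 := by
  have h : (∑ k ∈ Finset.range n, s ^ k) * (s - 1) = 0 := by rw [geom_sum_mul, hn, sub_self]
  exact LinearMap.congr_fun h m

/-- **(LAT)** Two lattices with endomorphisms `s₁`, `s₂` (`s₂ ^ n = 1`) spanning the same real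
representation have the same Herbrand quotient for the pair `(s - 1, 1 + s + ⋯ + s ^ (n - 1))`,
in cross-multiplied form, and finiteness transfers. -/
theorem herbrand_eq_of_equivariant_embedding
    {M₁ M₂ : Type*} [AddCommGroup M₁] [AddCommGroup M₂]
    (s₁ : M₁ →ₗ[ℤ] M₁) (s₂ : M₂ →ₗ[ℤ] M₂) (n : ℕ) (hn : s₂ ^ n = 1)
    (j : M₁ →ₗ[ℤ] M₂) (hj : Function.Injective j)
    (hfin : (LinearMap.range j).toAddSubgroup.FiniteIndex) (hjs : ∀ m, j (s₁ m) = s₂ (j m)) :
    hIdx (subOne s₁) (geomSum s₁ n) * hIdx (geomSum s₂ n) (subOne s₂) =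
        hIdx (geomSum s₁ n) (subOne s₁) * hIdx (subOne s₂) (geomSum s₂ n) ∧
      ((hIdx (subOne s₁) (geomSum s₁ n) ≠ 0 ∧ hIdx (geomSum s₁ n) (subOne s₁) ≠ 0) ↔
        (hIdx (subOne s₂) (geomSum s₂ n) ≠ 0 ∧ hIdx (geomSum s₂ n) (subOne s₂) ≠ 0)) := by
  have hpow : ∀ (k : ℕ) (m : M₁), j ((s₁ ^ k) m) = (s₂ ^ k) (j m) := by
    intro k
    induction k with
    | zero => intro m; simp
    | succ k ih => intro m; rw [pow_succ', pow_succ', Module.End.mul_apply, hjs, ih,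
        Module.End.mul_apply]
  refine hIdx_mul_of_finiteIndex j.toAddMonoidHom hj hfin ?_ ?_ (subOne_geomSum s₂ n hn)
    (geomSum_subOne s₂ n hn)
  · intro a
    change j (s₁ a - a) = s₂ (j a) - j a
    rw [map_sub, hjs]
  · intro a
    change j (geomSum s₁ n a) = geomSum s₂ n (j a)
    rw [geomSum_apply, geomSum_apply, map_sum]
    exact Finset.sum_congr rfl fun k _ => hpow k a

end Cyclic

/-! ### (LAT) for two `ℤ`-lattices of a real vector space -/

section ZLattice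

open Fermat.Agent.S55.H84

/-- The `ℤ`-linear endomorphism of an `S`-stable `ℤ`-submodule `L` induced by `S`. -/
noncomputable def latticeEnd {E : Type*} [AddCommGroup E] [Module ℝ E] (L : Submodule ℤ E)
    (S : E →ₗ[ℝ] E) (hS : ∀ x ∈ L, S x ∈ L) : L →ₗ[ℤ] L :=
  (S.restrictScalars ℤ).restrict hS

theorem latticeEnd_apply {E : Type*} [AddCommGroup E] [Module ℝ E] (L : Submodule ℤ E)
    (S : E →ₗ[ℝ] E) (hS : ∀ x ∈ L, S x ∈ L) (m : L) :
    ((latticeEnd L S hS m : L) : E) = S m := rfl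

theorem latticeEnd_pow_apply {E : Type*} [AddCommGroup E] [Module ℝ E] (L : Submodule ℤ E)
    (S : E →ₗ[ℝ] E) (hS : ∀ x ∈ L, S x ∈ L)
    (n : ℕ) (m : L) : (((latticeEnd L S hS) ^ n) m : E) = (S ^ n) m := by
  induction n generalizing m with
  | zero => simp
  | succ n ih => rw [pow_succ', pow_succ', Module.End.mul_apply, Module.End.mul_apply,
      latticeEnd_apply, ih]

/-- **(LAT)**, lattice form: two `ℤ`-lattices `L₁`, `L₂` of a finite-dimensional real vector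
space, stable under an endomorphism `S` with `S ^ n = 1`, have the same Herbrand quotient for the
pair `(S - 1, 1 + S + ⋯ + S ^ (n - 1))`. -/
theorem herbrand_eq_of_isZLattice
    {E : Type*} [NormedAddCommGroup E] [NormedSpace ℝ E] [FiniteDimensional ℝ E]
    (L₁ L₂ : Submodule ℤ E) [DiscreteTopology L₁] [IsZLattice ℝ L₁]
    [DiscreteTopology L₂] [IsZLattice ℝ L₂] (S : E →ₗ[ℝ] E)
    (hS₁ : ∀ x ∈ L₁, S x ∈ L₁) (hS₂ : ∀ x ∈ L₂, S x ∈ L₂) (n : ℕ) (hn : S ^ n = 1) :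
    hIdx (subOne (latticeEnd L₁ S hS₁)) (geomSum (latticeEnd L₁ S hS₁) n) *
        hIdx (geomSum (latticeEnd L₂ S hS₂) n) (subOne (latticeEnd L₂ S hS₂)) =
      hIdx (geomSum (latticeEnd L₁ S hS₁) n) (subOne (latticeEnd L₁ S hS₁)) *
        hIdx (subOne (latticeEnd L₂ S hS₂)) (geomSum (latticeEnd L₂ S hS₂) n) ∧
      ((hIdx (subOne (latticeEnd L₁ S hS₁)) (geomSum (latticeEnd L₁ S hS₁) n) ≠ 0 ∧
          hIdx (geomSum (latticeEnd L₁ S hS₁) n) (subOne (latticeEnd L₁ S hS₁)) ≠ 0) ↔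
        (hIdx (subOne (latticeEnd L₂ S hS₂)) (geomSum (latticeEnd L₂ S hS₂) n) ≠ 0 ∧
          hIdx (geomSum (latticeEnd L₂ S hS₂) n) (subOne (latticeEnd L₂ S hS₂)) ≠ 0)) := by
  obtain ⟨j, hj1, hj2, hj3⟩ := exists_equivariant_embedding_of_isZLattice L₁ L₂ S hS₁ hS₂
  refine herbrand_eq_of_equivariant_embedding _ _ n ?_ j hj1 hj2 (fun m => Subtype.ext (hj3 m))
  apply LinearMap.ext
  intro m
  apply Subtype.ext
  rw [latticeEnd_pow_apply, hn]
  rfl

end ZLattice

end Fermat.Agent.S55.H82
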