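/-
S55 (Program C / C6, first inequality), hypotheses (N1) + (N2) of helper50's abstract theorem
(#2057 §2) in the Mathlib model (helper82):  `E := T`-units of `L`, `T` = the primes of `L` above
a set `S` of primes of `K`, for an AKLB situation with `L/K` finite Galois.

* `primesAbove A B S` : the set `T`;
* `exists_under_eq` : every prime of `A` lies under a prime of `B`;
* `map_gal_mem_unit`, `map_algebraMap_mem_unit_iff`, `map_norm_mem_unit` : the Galois group
  preserves the `T`-units, `Kˣ ∩ (T-units) = S-units`, norms of `T`-units are `S`-units;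
* `unitsGal A S σ : E →* E`, `unitsIncl A S : S.unit K →* E`, `unitsNorm A S : E →* S.unit K`;
* (N1) `unitsGal_iterate_eq_self`, `unitsIncl_injective`, `unitsGal_eq_self_iff`,
  `unitsIncl_unitsNorm`, all four together in `unitsGal_package`;
* (N2) `exists_eq_unitsGal_div_of_unitsNorm_eq_one` (from `UnitsH1.lean`);
* `unitsGal_package_numberField` : (N1) + (N2) for number fields (`A = 𝓞 K`, `B = 𝓞 L`).
-/
import Mathlib
import Fermat.Agent.S55.H82.UnitsH1

set_option autoImplicit false
set_option linter.unusedSectionVars false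

open IsDedekindDomain HeightOneSpectrum

namespace Fermat.Agent.S55.H82

noncomputable section

section AKLB

variable (A : Type*) {K L : Type} (B : Type*)
  [CommRing A] [IsDedekindDomain A] [CommRing B] [IsDedekindDomain B] [Algebra A B]
  [Field K] [Field L] [Algebra K L] [Algebra A K] [IsFractionRing A K] [Algebra A L]
  [IsScalarTower A K L] [Algebra B L] [IsFractionRing B L] [IsScalarTower A B L]
  [IsIntegralClosure B A L] [Algebra.IsIntegral A B] [FiniteDimensional K L]
  [Module.IsTorsionFree A B]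

/-- The primes of `B` above a set `S` of primes of `A`. -/
def primesAbove (S : Set (HeightOneSpectrum A)) : Set (HeightOneSpectrum B) :=
  {w | w.under A ∈ S}

variable {B}

/-- Every prime of `A` lies under a prime of `B`. -/
theorem exists_under_eq (v : HeightOneSpectrum A) : ∃ w : HeightOneSpectrum B, w.under A = v := by
  have : v.asIdeal.IsMaximal := v.isMaximal
  obtain ⟨P, hP, hPv⟩ := Ideal.exists_maximal_ideal_liesOver_of_isIntegral (S := B) v.asIdeal
  have hP0 : P ≠ ⊥ := by
    rintro rfl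
    have h1 : v.asIdeal = (⊥ : Ideal B).under A := hPv.over
    rw [Ideal.under_bot] at h1
    exact v.ne_bot h1
  exact ⟨⟨P, hP.isPrime, hP0⟩, HeightOneSpectrum.ext hPv.over.symm⟩

variable (S : Set (HeightOneSpectrum A))

/-- The Galois group preserves the `T`-units. -/
theorem map_gal_mem_unit (σ : L ≃ₐ[K] L) {x : Lˣ} (hx : x ∈ (primesAbove A B S).unit L) :
    Units.map (σ : L →* L) x ∈ (primesAbove A B S).unit L := by
  intro w hw
  have hw' : galComap A σ w ∉ primesAbove A B S := by
    intro h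
    apply hw
    have h' : (galComap A σ w).under A ∈ S := h
    rw [galComap_under] at h'
    exact h'
  have := hx _ hw'
  rw [galComap_valuation] at this
  exact this

/-- An element of `Kˣ` is a `T`-unit of `L` iff it is an `S`-unit of `K`. -/
theorem map_algebraMap_mem_unit_iff (c : Kˣ) :
    Units.map (algebraMap K L : K →* L) c ∈ (primesAbove A B S).unit L ↔ c ∈ S.unit K := by
  constructor
  · intro h v hv
    obtain ⟨w, rfl⟩ := exists_under_eq (B := B) A v
    have hw : w ∉ primesAbove A B S := hv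
    have h1 : w.valuation L (algebraMap K L (c : K)) = 1 := h w hw
    have : w.asIdeal.LiesOver (w.under A).asIdeal := ⟨rfl⟩
    rw [← valuation_liesOver L (w.under A) w (c : K)] at h1
    have he : (w.under A).asIdeal.ramificationIdx' w.asIdeal ≠ 0 :=
      Ideal.IsDedekindDomain.ramificationIdx'_ne_zero_of_liesOver w.asIdeal (w.under A).ne_bot
    rcases lt_trichotomy ((w.under A).valuation K (c : K)) 1 with h2 | h2 | h2
    · exact absurd h1 (pow_lt_one₀ zero_le h2 he).ne
    · exact h2
    · exact absurd h1 (one_lt_pow₀ h2 he).ne'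
  · intro h w hw
    have hw' : w.under A ∉ S := hw
    have : w.asIdeal.LiesOver (w.under A).asIdeal := ⟨rfl⟩
    change w.valuation L (algebraMap K L (c : K)) = 1
    rw [← valuation_liesOver L (w.under A) w (c : K), h _ hw', one_pow]

/-- The norm of a `T`-unit is an `S`-unit. -/
theorem map_norm_mem_unit [IsGalois K L] {x : Lˣ} (hx : x ∈ (primesAbove A B S).unit L) :
    Units.map (Algebra.norm K : L →* K) x ∈ S.unit K := by
  rw [← map_algebraMap_mem_unit_iff (L := L) (B := B) A S]
  have h1 : Units.map (algebraMap K L : K →* L) (Units.map (Algebra.norm K : L →* K) x) =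
      ∏ g : L ≃ₐ[K] L, Units.map (g : L →* L) x := by
    ext
    simp only [Units.coe_map, MonoidHom.coe_coe, Units.coe_prod]
    exact Algebra.norm_eq_prod_automorphisms K (x : L)
  rw [h1]
  exact Subgroup.prod_mem _ fun g _ => map_gal_mem_unit A S g hx

/-! ### The bundled maps -/

/-- The action of `σ ∈ Gal(L/K)` on the `T`-units of `L`. -/
def unitsGal (σ : L ≃ₐ[K] L) :
    ↥((primesAbove A B S).unit L) →* ↥((primesAbove A B S).unit L) :=
  ((Units.map (σ : L →* L)).comp (Subgroup.subtype _)).codRestrict _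
    (fun x => map_gal_mem_unit (K := K) A S σ x.2)

/-- The inclusion of the `S`-units of `K` into the `T`-units of `L`. -/
def unitsIncl : ↥(S.unit K) →* ↥((primesAbove A B S).unit L) :=
  ((Units.map (algebraMap K L : K →* L)).comp (Subgroup.subtype _)).codRestrict _
    (fun c => (map_algebraMap_mem_unit_iff A S (c : Kˣ)).2 c.2)

/-- The norm from the `T`-units of `L` to the `S`-units of `K`. -/
def unitsNorm [IsGalois K L] : ↥((primesAbove A B S).unit L) →* ↥(S.unit K) :=
  ((Units.map (Algebra.norm K : L →* K)).comp (Subgroup.subtype _)).codRestrict _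
    (fun x => map_norm_mem_unit (K := K) A S x.2)

variable {A S}

@[simp] theorem coe_unitsGal (σ : L ≃ₐ[K] L) (x : ↥((primesAbove A B S).unit L)) :
    (((unitsGal A S σ x : ↥((primesAbove A B S).unit L)) : Lˣ) : L) = σ ((x : Lˣ) : L) := rfl

@[simp] theorem coe_unitsIncl (c : ↥(S.unit K)) :
    (((unitsIncl A S c : ↥((primesAbove A B S).unit L)) : Lˣ) : L) =
      algebraMap K L ((c : Kˣ) : K) := rfl

@[simp] theorem coe_unitsNorm [IsGalois K L] (x : ↥((primesAbove A B S).unit L)) :
    (((unitsNorm A S x : ↥(S.unit K)) : Kˣ) : K) = Algebra.norm K ((x : Lˣ) : L) := rfl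

theorem coe_unitsGal_iterate (σ : L ≃ₐ[K] L) (n : ℕ) (x : ↥((primesAbove A B S).unit L)) :
    (((((unitsGal A S σ)^[n] x : ↥((primesAbove A B S).unit L))) : Lˣ) : L) =
      (σ ^ n) ((x : Lˣ) : L) := by
  induction n with
  | zero => simp
  | succ n ih =>
    rw [Function.iterate_succ_apply', coe_unitsGal, ih, pow_succ']
    rfl

/-- (N1a) `σ^n = 1` on the `T`-units. -/
theorem unitsGal_iterate_eq_self (σ : L ≃ₐ[K] L) {n : ℕ} (hn : σ ^ n = 1)
    (x : ↥((primesAbove A B S).unit L)) : (unitsGal A S σ)^[n] x = x := by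
  apply Subtype.ext
  apply Units.ext
  rw [coe_unitsGal_iterate, hn]
  rfl

/-- (N1b) the inclusion is injective. -/
theorem unitsIncl_injective : Function.Injective (unitsIncl (K := K) (B := B) (L := L) A S) := by
  intro c d h
  apply Subtype.ext
  apply Units.ext
  have h1 := congrArg (fun y : ↥((primesAbove A B S).unit L) => ((y : Lˣ) : L)) h
  simp only [coe_unitsIncl] at h1
  exact (algebraMap K L).injective h1

/-- (N1c) the fixed points of a generator `σ` on the `T`-units are the `S`-units of `K`. -/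
theorem unitsGal_eq_self_iff [IsGalois K L] (σ : L ≃ₐ[K] L) (hσ : ∀ g, g ∈ Subgroup.zpowers σ)
    (x : ↥((primesAbove A B S).unit L)) :
    unitsGal A S σ x = x ↔ x ∈ (unitsIncl (K := K) (B := B) (L := L) A S).range := by
  constructor
  · intro h
    have h1 : σ ((x : Lˣ) : L) = ((x : Lˣ) : L) :=
      congrArg (fun y : ↥((primesAbove A B S).unit L) => ((y : Lˣ) : L)) h
    have h2 : ∀ g : L ≃ₐ[K] L, g ((x : Lˣ) : L) = ((x : Lˣ) : L) := by
      intro g
      obtain ⟨k, rfl⟩ := Subgroup.mem_zpowers_iff.1 (hσ g)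
      have h3 : σ ∈ MulAction.stabilizer (L ≃ₐ[K] L) ((x : Lˣ) : L) := h1
      exact (Subgroup.zpow_mem _ h3 k : σ ^ k ∈ MulAction.stabilizer (L ≃ₐ[K] L) ((x : Lˣ) : L))
    obtain ⟨c, hc⟩ := (IsGalois.mem_range_algebraMap_iff_fixed ((x : Lˣ) : L)).2 h2
    have hc0 : c ≠ 0 := by
      rintro rfl
      rw [map_zero] at hc
      exact (x : Lˣ).ne_zero hc.symm
    have hcx : Units.map (algebraMap K L : K →* L) (Units.mk0 c hc0) = (x : Lˣ) := Units.ext hc
    have hcS : Units.mk0 c hc0 ∈ S.unit K := by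
      rw [← map_algebraMap_mem_unit_iff (L := L) (B := B) A S, hcx]
      exact x.2
    exact ⟨⟨Units.mk0 c hc0, hcS⟩, Subtype.ext hcx⟩
  · rintro ⟨c, rfl⟩
    apply Subtype.ext
    apply Units.ext
    simp

/-- The product over the Galois group as a product over the powers of a generator. -/
theorem prod_gal_eq_prod_range [IsGalois K L] (σ : L ≃ₐ[K] L)
    (hσ : ∀ g, g ∈ Subgroup.zpowers σ) (f : (L ≃ₐ[K] L) → L) :
    ∏ g : L ≃ₐ[K] L, f g = ∏ i ∈ Finset.range (Nat.card (L ≃ₐ[K] L)), f (σ ^ i) := by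
  classical
  rw [← IsCyclic.image_range_card hσ, Finset.prod_image]
  intro i hi j hj hij
  rw [← orderOf_eq_card_of_forall_mem_zpowers hσ] at hi hj
  exact pow_injOn_Iio_orderOf (by simpa using hi) (by simpa using hj) hij

/-- (N1d) the norm is the product of the conjugates. -/
theorem unitsIncl_unitsNorm [IsGalois K L] (σ : L ≃ₐ[K] L) (hσ : ∀ g, g ∈ Subgroup.zpowers σ)
    (x : ↥((primesAbove A B S).unit L)) :
    unitsIncl A S (unitsNorm (K := K) A S x) =
      ∏ i ∈ Finset.range (Nat.card (L ≃ₐ[K] L)), (unitsGal A S σ)^[i] x := by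
  apply Subtype.ext
  apply Units.ext
  rw [coe_unitsIncl, coe_unitsNorm, Algebra.norm_eq_prod_automorphisms,
    prod_gal_eq_prod_range σ hσ, Subgroup.val_finsetProd, Units.coe_prod]
  exact Finset.prod_congr rfl fun i _ => (coe_unitsGal_iterate σ i x).symm

/-- (N1), all four statements, for a generator `σ` of the Galois group of order `p`. -/
theorem unitsGal_package [IsGalois K L] (σ : L ≃ₐ[K] L) (hσ : ∀ g, g ∈ Subgroup.zpowers σ)
    {p : ℕ} (hp : Nat.card (L ≃ₐ[K] L) = p) :
    (∀ x : ↥((primesAbove A B S).unit L), (unitsGal A S σ)^[p] x = x) ∧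
    Function.Injective (unitsIncl (K := K) (B := B) (L := L) A S) ∧
    (∀ x : ↥((primesAbove A B S).unit L),
      unitsGal A S σ x = x ↔ x ∈ (unitsIncl (K := K) (B := B) (L := L) A S).range) ∧
    (∀ x : ↥((primesAbove A B S).unit L), unitsIncl A S (unitsNorm (K := K) A S x) =
      ∏ i ∈ Finset.range p, (unitsGal A S σ)^[i] x) := by
  subst hp
  exact ⟨fun x => unitsGal_iterate_eq_self σ pow_card_eq_one' x, unitsIncl_injective,
    fun x => unitsGal_eq_self_iff σ hσ x, fun x => unitsIncl_unitsNorm σ hσ x⟩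

/-- (N2) `H¹ = 0` for the bundled maps: a `T`-unit of norm one is `σ y / y`. -/
theorem exists_eq_unitsGal_div_of_unitsNorm_eq_one [IsGalois K L] [IsCyclic (L ≃ₐ[K] L)]
    (σ : L ≃ₐ[K] L) (hσ : ∀ g, g ∈ Subgroup.zpowers σ)
    (hunr : ∀ w : HeightOneSpectrum B, w.under A ∉ S →
      (w.under A).asIdeal.ramificationIdx' w.asIdeal = 1)
    (hcl : ∀ n : HeightOneSpectrum A → ℤ, (Function.support n).Finite →
      ∃ c : Kˣ, ∀ v, v ∉ S → H83.ordv K v c = n v)
    (x : ↥((primesAbove A B S).unit L)) (hx : unitsNorm (K := K) A S x = 1) :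
    ∃ y : ↥((primesAbove A B S).unit L), x = unitsGal A S σ y / y := by
  have hN : Algebra.norm K ((x : Lˣ) : L) = 1 := by
    have h1 := congrArg (fun c : ↥(S.unit K) => ((c : Kˣ) : K)) hx
    simpa using h1
  obtain ⟨y, hy, hxy⟩ := exists_sUnit_div_eq_of_norm_eq_one A σ hσ S hunr hcl (x : Lˣ) x.2 hN
  refine ⟨⟨y, hy⟩, ?_⟩
  apply Subtype.ext
  apply Units.ext
  rw [hxy]
  simp

end AKLB

section NumberField

open NumberField

variable {K L : Type} [Field K] [NumberField K] [Field L] [NumberField L] [Algebra K L]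

/-- (N1) + (N2) for number fields: `E = T`-units of `L`, `T` the primes above `S`. -/
theorem unitsGal_package_numberField [IsGalois K L] [IsCyclic (L ≃ₐ[K] L)]
    (σ : L ≃ₐ[K] L) (hσ : ∀ g, g ∈ Subgroup.zpowers σ)
    {p : ℕ} (hp : Nat.card (L ≃ₐ[K] L) = p) (S : Set (HeightOneSpectrum (𝓞 K)))
    (hunr : ∀ w : HeightOneSpectrum (𝓞 L), w.under (𝓞 K) ∉ S →
      (w.under (𝓞 K)).asIdeal.ramificationIdx' w.asIdeal = 1)
    (hcl : ∀ n : HeightOneSpectrum (𝓞 K) → ℤ, (Function.support n).Finite →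
      ∃ c : Kˣ, ∀ v, v ∉ S → H83.ordv K v c = n v) :
    (∀ x : ↥((primesAbove (𝓞 K) (𝓞 L) S).unit L), (unitsGal (𝓞 K) S σ)^[p] x = x) ∧
    Function.Injective (unitsIncl (K := K) (B := 𝓞 L) (L := L) (𝓞 K) S) ∧
    (∀ x : ↥((primesAbove (𝓞 K) (𝓞 L) S).unit L),
      unitsGal (𝓞 K) S σ x = x ↔ x ∈ (unitsIncl (K := K) (B := 𝓞 L) (L := L) (𝓞 K) S).range) ∧
    (∀ x : ↥((primesAbove (𝓞 K) (𝓞 L) S).unit L),
      unitsIncl (𝓞 K) S (unitsNorm (K := K) (𝓞 K) S x) =
        ∏ i ∈ Finset.range p, (unitsGal (𝓞 K) S σ)^[i] x) ∧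
    (∀ x : ↥((primesAbove (𝓞 K) (𝓞 L) S).unit L), unitsNorm (K := K) (𝓞 K) S x = 1 →
      ∃ y : ↥((primesAbove (𝓞 K) (𝓞 L) S).unit L), x = unitsGal (𝓞 K) S σ y / y) := by
  obtain ⟨h1, h2, h3, h4⟩ := unitsGal_package (A := 𝓞 K) (B := 𝓞 L) (S := S) σ hσ hp
  exact ⟨h1, h2, h3, h4, fun x hx =>
    exists_eq_unitsGal_div_of_unitsNorm_eq_one σ hσ hunr hcl x hx⟩

end NumberField

end

end Fermat.Agent.S55.H82
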