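/-
S55 (Program C / C6, first inequality), the numerical hypotheses of helper50's
`firstIneq_abstract_gen` (`hE`, `hEtors`, `hGS`, `hGStors`, the numbers of `hcount`) in the Mathlib
model (helper82): `S`-units of `K`, `T`-units of `L` (`T` = primes above `S`), `L/K` Galois of
odd prime degree `p` with `μ_p ⊆ K`.

* `card_ker_powMonoidHom_unit` : the `p`-torsion of the `S`-units is `μ_p` (`p` elements);
* `fibre A B v`, `ncard_fibre_dvd`, `primesAbove_finite`, `ncard_primesAbove`, `exists_count` :
  a prime of `K` has `1` or `p` primes above in a Galois extension of prime degree `p`, hence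
  `#T = a + p·b`, `#S = a + b`;
* `card_infinitePlace_of_odd` : `#InfinitePlace L = #InfinitePlace K · [L:K]` for odd degree;
* `index_powMonoidHom_range_unit_primesAbove` : `[E : E^p] = p^(#InfinitePlace L + #T)`
  (helper83's `S`-unit theorem);
* `exists_count_numberField` : everything together, exponents `T₁.card + b` (for `K`) and
  `T₁.card + p * b` (for `L`), `T₁ ⊆ S` the primes with a single prime above.
-/
import Mathlib
import Fermat.Agent.S55.H82.UnitsGal
import Fermat.Agent.S55.H83.SUnitCard

set_option autoImplicit false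
set_option linter.unusedSectionVars false

open IsDedekindDomain HeightOneSpectrum

namespace Fermat.Agent.S55.H82

noncomputable section

section Torsion

variable {R : Type*} [CommRing R] [IsDedekindDomain R] {K : Type*} [Field K] [Algebra R K]
  [IsFractionRing R K]

/-- Roots of unity are units at every prime. -/
theorem valuation_eq_one_of_pow_eq_one (v : HeightOneSpectrum R) {x : K} {n : ℕ} (hn : n ≠ 0)
    (hx : x ^ n = 1) : v.valuation K x = 1 := by
  have h1 : v.valuation K x ^ n = 1 := by rw [← map_pow, hx, map_one]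
  rcases lt_trichotomy (v.valuation K x) 1 with h2 | h2 | h2
  · exact absurd h1 (pow_lt_one₀ zero_le h2 hn).ne
  · exact h2
  · exact absurd h1 (one_lt_pow₀ h2 hn).ne'

/-- (hEtors / hGStors) the `p`-torsion of the `S`-units is `μ_p`: it has `p` elements as soon as
`K` contains a primitive `p`-th root of unity. -/
theorem card_ker_powMonoidHom_unit (S : Set (HeightOneSpectrum R)) {p : ℕ} [NeZero p] {ζ : K}
    (hζ : IsPrimitiveRoot ζ p) :
    Nat.card (powMonoidHom p : ↥(S.unit K) →* ↥(S.unit K)).ker = p := by
  have hp : p ≠ 0 := NeZero.ne p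
  refine (Nat.card_congr (α := ↥((powMonoidHom p : ↥(S.unit K) →* ↥(S.unit K)).ker))
    (β := ↥(rootsOfUnity p K))
    { toFun := fun x => ⟨((x : ↥(S.unit K)) : Kˣ), ?_⟩
      invFun := fun u => ⟨⟨(u : Kˣ), ?_⟩, ?_⟩
      left_inv := fun x => rfl
      right_inv := fun u => rfl }).trans hζ.card_rootsOfUnity
  · rw [mem_rootsOfUnity]
    have h1 : ((x : ↥(S.unit K)) ^ p : ↥(S.unit K)) = 1 := x.2
    exact congrArg (fun y : ↥(S.unit K) => (y : Kˣ)) h1
  · intro v _
    have h1 : (u : Kˣ) ^ p = 1 := (mem_rootsOfUnity _ _).1 u.2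
    have h2 : ((u : Kˣ) : K) ^ p = 1 := by
      rw [← Units.val_pow_eq_pow_val, h1, Units.val_one]
    exact valuation_eq_one_of_pow_eq_one v hp h2
  · rw [MonoidHom.mem_ker]
    apply Subtype.ext
    exact (mem_rootsOfUnity _ _).1 u.2

end Torsion

section Count

variable (A : Type*) {K L : Type} (B : Type*)
  [CommRing A] [IsDedekindDomain A] [CommRing B] [IsDedekindDomain B] [Algebra A B]
  [Field K] [Field L] [Algebra K L] [Algebra A K] [IsFractionRing A K] [Algebra A L]
  [IsScalarTower A K L] [Algebra B L] [IsFractionRing B L] [IsScalarTower A B L]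
  [IsIntegralClosure B A L] [Algebra.IsIntegral A B] [FiniteDimensional K L]
  [Module.IsTorsionFree A B]

/-- The primes of `B` above a prime `v` of `A`. -/
def fibre (v : HeightOneSpectrum A) : Set (HeightOneSpectrum B) := {w | w.under A = v}

theorem image_asIdeal_fibre (v : HeightOneSpectrum A) :
    HeightOneSpectrum.asIdeal '' (fibre A B v) = v.asIdeal.primesOver B := by
  ext P
  constructor
  · rintro ⟨w, hw, rfl⟩
    have hw' : w.under A = v := hw
    exact ⟨w.isPrime, ⟨by rw [← hw']; rfl⟩⟩
  · rintro ⟨hP, hPv⟩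
    have hP0 : P ≠ ⊥ := by
      rintro rfl
      have h1 : v.asIdeal = (⊥ : Ideal B).under A := hPv.over
      rw [Ideal.under_bot] at h1
      exact v.ne_bot h1
    exact ⟨⟨P, hP, hP0⟩, HeightOneSpectrum.ext hPv.over.symm, rfl⟩

theorem asIdeal_injective' :
    Function.Injective (HeightOneSpectrum.asIdeal : HeightOneSpectrum B → Ideal B) :=
  fun _ _ h => HeightOneSpectrum.ext h

theorem ncard_fibre (v : HeightOneSpectrum A) :
    (fibre A B v).ncard = (v.asIdeal.primesOver B).ncard := by
  rw [← image_asIdeal_fibre, Set.ncard_image_of_injective _ (asIdeal_injective' B)]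

theorem fibre_finite (v : HeightOneSpectrum A) : (fibre A B v).Finite := by
  refine Set.Finite.of_finite_image ?_ (Set.injOn_of_injective (asIdeal_injective' B))
  rw [image_asIdeal_fibre]
  have : v.asIdeal.IsMaximal := v.isMaximal
  exact IsDedekindDomain.primesOver_finite v.asIdeal B

/-- In a Galois extension the number of primes above `v` divides the degree. -/
theorem ncard_fibre_dvd [IsGalois K L] (v : HeightOneSpectrum A) :
    (fibre A B v).ncard ∣ Nat.card (L ≃ₐ[K] L) := by
  rw [ncard_fibre]
  have : Module.Finite A B := IsIntegralClosure.finite A K L B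
  let _ : MulSemiringAction (L ≃ₐ[K] L) B := IsIntegralClosure.MulSemiringAction A K L B
  have : IsGaloisGroup (L ≃ₐ[K] L) A B := IsGaloisGroup.of_isFractionRing _ _ _ K L
  have := v.isPrime
  exact Dvd.intro _
    (Ideal.ncard_primesOver_mul_ramificationIdxIn_mul_inertiaDegIn v.asIdeal B (L ≃ₐ[K] L))

theorem primesAbove_eq_biUnion (S : Set (HeightOneSpectrum A)) :
    primesAbove A B S = ⋃ v ∈ S, fibre A B v := by
  ext w
  simp [primesAbove, fibre]

theorem primesAbove_finite {S : Set (HeightOneSpectrum A)} (hS : S.Finite) :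
    (primesAbove A B S).Finite := by
  rw [primesAbove_eq_biUnion]
  exact hS.biUnion fun v _ => fibre_finite A B v

theorem ncard_primesAbove (S : Finset (HeightOneSpectrum A)) :
    (primesAbove A B (S : Set (HeightOneSpectrum A))).ncard = ∑ v ∈ S, (fibre A B v).ncard := by
  classical
  have h1 : primesAbove A B (S : Set (HeightOneSpectrum A)) =
      ↑(S.biUnion fun v => (fibre_finite A B v).toFinset) := by
    ext w
    simp [primesAbove, fibre]
  rw [h1, Set.ncard_coe_finset, Finset.card_biUnion]
  · exact Finset.sum_congr rfl fun v _ => (Set.ncard_eq_toFinset_card _ _).symm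
  · intro v _ v' _ hvv'
    rw [Function.onFun, Finset.disjoint_left]
    intro w hw hw'
    rw [Set.Finite.mem_toFinset] at hw hw'
    exact hvv' ((show w.under A = v from hw).symm.trans hw')

/-- **Place count** (finite places) for a Galois extension of prime degree `p`: the primes of
a finite set `S` are of two kinds, those with a single prime above (`T₁`) and those with `p`
primes above. -/
theorem exists_count [IsGalois K L] {p : ℕ} (hp : p.Prime) (hcard : Nat.card (L ≃ₐ[K] L) = p)
    (S : Finset (HeightOneSpectrum A)) :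
    ∃ (T₁ : Finset (HeightOneSpectrum A)) (b : ℕ), T₁ ⊆ S ∧
      (∀ v ∈ T₁, (fibre A B v).ncard = 1) ∧ (∀ v ∈ S, v ∉ T₁ → (fibre A B v).ncard = p) ∧
      S.card = T₁.card + b ∧
      (primesAbove A B (S : Set (HeightOneSpectrum A))).ncard = T₁.card + p * b := by
  classical
  refine ⟨S.filter fun v => (fibre A B v).ncard = 1,
    (S.filter fun v => ¬ (fibre A B v).ncard = 1).card, Finset.filter_subset _ _, ?_, ?_, ?_, ?_⟩
  · intro v hv
    exact (Finset.mem_filter.1 hv).2
  · intro v hv hv'
    have h1 : ¬ (fibre A B v).ncard = 1 := fun h => hv' (Finset.mem_filter.2 ⟨hv, h⟩)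
    have h2 := ncard_fibre_dvd (K := K) (L := L) A B v
    rw [hcard] at h2
    exact ((Nat.dvd_prime hp).1 h2).resolve_left h1
  · exact (Finset.card_filter_add_card_filter_not _).symm
  · rw [ncard_primesAbove, ← Finset.sum_filter_add_sum_filter_not S
      (fun v => (fibre A B v).ncard = 1)]
    congr 1
    · rw [Finset.sum_congr rfl fun v hv => (Finset.mem_filter.1 hv).2]
      simp
    · have h3 : ∀ v ∈ S.filter (fun v => ¬ (fibre A B v).ncard = 1), (fibre A B v).ncard = p := by
        intro v hv
        have h2 := ncard_fibre_dvd (K := K) (L := L) A B v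
        rw [hcard] at h2
        exact ((Nat.dvd_prime hp).1 h2).resolve_left (Finset.mem_filter.1 hv).2
      rw [Finset.sum_congr rfl h3]
      simp [mul_comm]

end Count

section NumberField

open NumberField

variable {K L : Type} [Field K] [NumberField K] [Field L] [NumberField L] [Algebra K L]

/-- The infinite places of a Galois extension of odd degree. -/
theorem card_infinitePlace_of_odd [IsGalois K L] (h : Odd (Module.finrank K L)) :
    Fintype.card (InfinitePlace L) = Fintype.card (InfinitePlace K) * Module.finrank K L := by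
  have := IsUnramifiedAtInfinitePlaces_of_odd_finrank (k := K) (K := L) h
  exact IsUnramifiedAtInfinitePlaces.card_infinitePlace K L

/-- (hE) the index of the `p`-th powers in the `T`-units of `L`, `T` the primes above a finite
set `S` of primes of `K` (helper83's `S`-unit theorem for `L`). -/
theorem index_powMonoidHom_range_unit_primesAbove (S : Finset (HeightOneSpectrum (𝓞 K)))
    {p : ℕ} [NeZero p] {ζ : L} (hζ : IsPrimitiveRoot ζ p) :
    (powMonoidHom p : ↥((primesAbove (𝓞 K) (𝓞 L) (S : Set (HeightOneSpectrum (𝓞 K)))).unit L) →*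
      ↥((primesAbove (𝓞 K) (𝓞 L) (S : Set (HeightOneSpectrum (𝓞 K)))).unit L)).range.index =
      p ^ (Fintype.card (InfinitePlace L) +
        (primesAbove (𝓞 K) (𝓞 L) (S : Set (HeightOneSpectrum (𝓞 K)))).ncard) := by
  have hfin := primesAbove_finite (𝓞 K) (𝓞 L) S.finite_toSet
  have hT : primesAbove (𝓞 K) (𝓞 L) (S : Set (HeightOneSpectrum (𝓞 K))) = ↑hfin.toFinset :=
    (Set.Finite.coe_toFinset hfin).symm
  have key := H83.index_powMonoidHom_range_sUnit L hfin.toFinset hζ
  rw [← Set.ncard_coe_finset] at key
  generalize hfin.toFinset = T' at hT key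
  rw [hT]
  exact key

/-- **The numerical input of the first inequality** in the Mathlib model: for a Galois extension
`L/K` of number fields of odd prime degree `p`, with `μ_p ⊆ K`, and a finite set `S` of primes
of `K`: the indices of `p`-th powers and the `p`-torsion of the `S`-units of `K` and of the
`T`-units of `L` (`T` the primes above `S`), with exponents `T₁.card + b` and `T₁.card + p * b`
where `T₁ ⊆ S` is the set of primes with a single prime above. -/
theorem exists_count_numberField [IsGalois K L] {p : ℕ} (hp : p.Prime) (hp2 : p ≠ 2)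
    (hcard : Nat.card (L ≃ₐ[K] L) = p) {ζ : K} (hζ : IsPrimitiveRoot ζ p)
    (S : Finset (HeightOneSpectrum (𝓞 K))) :
    ∃ (T₁ : Finset (HeightOneSpectrum (𝓞 K))) (b : ℕ), T₁ ⊆ S ∧
      (∀ v ∈ T₁, (fibre (𝓞 K) (𝓞 L) v).ncard = 1) ∧
      (∀ v ∈ S, v ∉ T₁ → (fibre (𝓞 K) (𝓞 L) v).ncard = p) ∧
      Fintype.card (InfinitePlace K) + S.card = T₁.card + b ∧
      (powMonoidHom p : ↥((S : Set (HeightOneSpectrum (𝓞 K))).unit K) →*
        ↥((S : Set (HeightOneSpectrum (𝓞 K))).unit K)).range.index = p ^ (T₁.card + b) ∧
      Nat.card (powMonoidHom p : ↥((S : Set (HeightOneSpectrum (𝓞 K))).unit K) →*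
        ↥((S : Set (HeightOneSpectrum (𝓞 K))).unit K)).ker = p ∧
      (powMonoidHom p :
        ↥((primesAbove (𝓞 K) (𝓞 L) (S : Set (HeightOneSpectrum (𝓞 K)))).unit L) →*
        ↥((primesAbove (𝓞 K) (𝓞 L) (S : Set (HeightOneSpectrum (𝓞 K)))).unit L)).range.index =
        p ^ (T₁.card + p * b) ∧
      Nat.card (powMonoidHom p :
        ↥((primesAbove (𝓞 K) (𝓞 L) (S : Set (HeightOneSpectrum (𝓞 K)))).unit L) →*
        ↥((primesAbove (𝓞 K) (𝓞 L) (S : Set (HeightOneSpectrum (𝓞 K)))).unit L)).ker = p := by
  have : NeZero p := ⟨hp.ne_zero⟩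
  have hζL : IsPrimitiveRoot (algebraMap K L ζ) p := hζ.map_of_injective (algebraMap K L).injective
  have hfr : Module.finrank K L = p := by rw [← hcard, IsGalois.card_aut_eq_finrank]
  have hodd : Odd (Module.finrank K L) := by
    rw [hfr]
    exact hp.odd_of_ne_two hp2
  obtain ⟨T₁, b, hT₁S, h1, h2, hS, hT⟩ := exists_count (K := K) (L := L) (𝓞 K) (𝓞 L) hp hcard S
  refine ⟨T₁, b + Fintype.card (InfinitePlace K), hT₁S, h1, h2, by omega, ?_,
    card_ker_powMonoidHom_unit _ hζ, ?_, card_ker_powMonoidHom_unit _ hζL⟩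
  · rw [H83.index_powMonoidHom_range_sUnit K S hζ]
    congr 1
    omega
  · rw [index_powMonoidHom_range_unit_primesAbove S hζL, card_infinitePlace_of_odd hodd, hfr, hT]
    congr 1
    ring

end NumberField

end

end Fermat.Agent.S55.H82
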